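import Mathlib
import Fermat.Agent.LT.T7.H305.MatchCut

/-!
# Row LT, tower T7, node C2.7.13 `FactUpC305` (helper305's second cut; owner helper340,
# registry row 2577): THE CUT -- Spec

OFF-MAIN.  Definitions and frozen Props only (the proved top is `FactUpTop.lean`).  No hole,
nothing assumed.  ADDITIVE (new names only, suffix `340`).  Vocabulary:
`T7/H305/MatchSpec.lean` v2 (sha256 0e8798b2), `T7/H305/MatchCut.lean` (sha256 0f302b81) and
their imports, byte-identical copies.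

    factUpC_of340 : UpFactC340 K K' → LocEqInertC340 K K' → LocEqSplitC340 K K'
                      → LocEqArchC340 K K' → H305.FactUpC305 K K'        (VERBATIM)

## The cut

`N δ = γ` elliptic, `γ` good outside `S`, `δ` integral outside `S'` (the places over `S`).
The integral upstairs is computed in THREE steps which do not interact:

1. (`UpFactC340`, NODE: global → local, NO matching)  For the product cut-off upstairs the
   cut-off integral is `(c'_G / c_T) ∑_j ∏_{v ∈ S} J_v ∏_{v ∣ ∞} J_v(j)` where the `J`'s are the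
   LOCAL TWISTED INTEGRALS UPSTAIRS, in the coordinates of the places of `K`:
   * `v ∈ S` with ONE place `w` over it (inert or ramified), `IsInertVal340`:
     `J_v = ∫_{GL₂(K'_w)} φ₀_w(x⁻¹ δ_w s_w(x)) β'_w(x) dμ'_w(x)` (`locTwInt340` = the integral of
     `T6.OrbSumIntC`), `μ'_w(U(n_w)) = 1`, `β'_w` a continuous cut-off for the normalised Haar
     measure of the twisted centraliser;
   * `v ∈ S` split, `w_0, …, w_{l-1}` the places over it (`w_j = σ(w_{j+1})`), `i_j : K_v ≃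
     K'_{w_j}`, `IsSplitVal340`: in the coordinates `y_j = i_j⁻¹(x_{w_j})`
     (`(σ x)_{w_j} = x_{w_{j+1}}` in these coordinates, the torus is the diagonal image of the
     centraliser of `γ` in `GL₂(K_v)`)
     `J_v = ∫_{GL₂(K_v)^l} ∏_j φ_j(y_j⁻¹ δ_j y_{j+1}) β_v(y_0) ∏ dμ_v(y_j)` (`splitInt340`),
     `φ_j = φ₀_{w_j} ∘ i_j`, `δ_j = i_j⁻¹(δ_{w_j})`, `μ_v`, `β_v` the local data DOWNSTAIRS;
   * `v ∣ ∞` (complex, split), `IsArchVal340`: the same on `GL₂(ℂ)^l` in the `K`-COORDINATES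
     `z_a = d_a(x_{w_a})`, `d_a ∈ {1, conj}` the type of `ι` at `w_a`
     (`(ι t)_{w_a} = d_a(t_v)`), `w_{a+1} = w_a ∘ σ`; in these coordinates no conjugation is
     left (`σ ι = ι`), `δ_a = d_a((δ r'^j)_{w_a})`.
2. (`LocEqInertC340`, `LocEqSplitC340`, LEAVES, local, finite places)  `J_v = I_v`, the local
   cut-off integral downstairs (`locInt305`), by local matching (`LocHyp305`).
3. (`LocEqArchC340`, LEAF, local, infinite places)  `J_v(j) = I_v(j)`.

FALSITY CHECKS (helper340).  Constants: `c'_G` = the constant of `HaarSplitC305 K'` for the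
levels `n` (the levels agree at the split places of `S`: `LocHyp305.split`; `U(0)` outside
`T₀`); the torus constant is the one DOWNSTAIRS (`IsTorLinked305`: `μT'` is the image of `μT`;
the local torus measures correspond: `i⁻¹(T'^c) = T^c`).  Ray: `r'` has the scalar `ρ'` with
`ρ'^{2 n l} = 2`, `r` the scalar `ρ` with `ρ^{2n} = 2`, so `ρ'^l = ρ` (`T5.IsRayGen`).  Order:
`N δ = δ σ(δ) ⋯ σ^{l-1}(δ)` has the component `δ_0 δ_1 ⋯ δ_{l-1}` at `w_0` in the coordinates
of `K_v`, the iterated integral gives `(φ_0 * ⋯ * φ_{l-1})(y_0⁻¹ δ_0 ⋯ δ_{l-1} y_0)`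
(`T6.SplitInt3C` for `l = 3`).  The values `J` do not depend on the choices (`s_w`, `i_j` are
unique by density, the integrals do not depend on the cut-off): the leaves of step 2, 3 are
stated for EVERY admissible choice.
-/

set_option autoImplicit false

open AutomorphicForm IsDedekindDomain NumberField MeasureTheory
open scoped ComplexConjugate

noncomputable section

namespace Fermat.Agent.LT.T7.H340

open Fermat.Agent.LT.H556 Fermat.Agent.LT.H556.A0 Fermat.Agent.LT.T7 Fermat.Agent.LT.T7.H305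

attribute [local instance] Fermat.Agent.LT.T5.instMeasurableSpaceG

/-! ## 1. The local integrals upstairs -/

/-- The local TWISTED cut-off integral `∫ φ(x⁻¹ δ s(x)) β(x) dμ(x)` on `GL₂(k)` (the integral of
`T6.OrbSumIntC`). -/
def locTwInt340 {k : Type} [Field k] [Valued k T6.Γ₀] (s : k ≃+* k)
    (μ : @Measure (GL (Fin 2) k) (borel _)) (β : GL (Fin 2) k → ℝ) (φ : GL (Fin 2) k → ℂ)
    (δ : GL (Fin 2) k) : ℂ :=
  @integral _ _ _ _ (borel _) μ
    (fun x : GL (Fin 2) k => φ (x⁻¹ * δ * T6.glAut s x) * ((β x : ℝ) : ℂ))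

/-- The cyclic successor on `Fin l`. -/
def cycSucc340 {l : ℕ} (j : Fin l) : Fin l := ⟨(j.1 + 1) % l, Nat.mod_lt _ j.pos⟩

/-- The SPLIT cut-off integral on `H^l`:
`∫ ∏_{j < l} φ_j(y_j⁻¹ δ_j y_{j+1}) β(y_0) ∏ dμ(y_j)` (indices modulo `l`). -/
def splitInt340 {H : Type} [Group H] [TopologicalSpace H] (l : ℕ) (hl : 0 < l)
    (μ : @Measure H (borel _)) (β : H → ℝ) (φ : ℕ → H → ℂ) (δ : ℕ → H) : ℂ :=
  letI : MeasurableSpace H := borel _
  ∫ y : Fin l → H,
    (∏ j : Fin l, φ j.1 ((y j)⁻¹ * δ j.1 * y (cycSucc340 j))) * ((β (y ⟨0, hl⟩) : ℝ) : ℂ)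
    ∂(Measure.pi fun _ : Fin l => μ)

section TwoFields

variable {K K' : Type} [Field K] [NumberField K] [Field K'] [NumberField K'] [Algebra K K']

/-- `J` is THE LOCAL TWISTED INTEGRAL UPSTAIRS at the place `v` with ONE place over it, for some
admissible local data. -/
def IsInertVal340 (D : CompData K K') (n : HeightOneSpectrum (𝓞 K') → ℕ)
    (φ₀ : ∀ w : HeightOneSpectrum (𝓞 K'), GL (Fin 2) (w.adicCompletion K') → ℂ)
    (δ : GL (Fin 2) K') (v : HeightOneSpectrum (𝓞 K)) (J : ℂ) : Prop :=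
  ∃ (w : HeightOneSpectrum (𝓞 K')) (e : ℕ) (i : v.adicCompletion K →+* w.adicCompletion K')
    (sw : w.adicCompletion K' ≃+* w.adicCompletion K')
    (μ' : @Measure (GL (Fin 2) (w.adicCompletion K')) (borel _))
    (μt' : @Measure (T6.twCentSub (T6.glAut sw) (locG305 w δ)) (borel _))
    (β' : GL (Fin 2) (w.adicCompletion K') → ℝ),
    PlaceOver K K' v w ∧
    (∀ w' : HeightOneSpectrum (𝓞 K'), PlaceOver K K' v w' → w' = w) ∧
    (∀ x : K, i (algebraMap K (v.adicCompletion K) x)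
      = algebraMap K' (w.adicCompletion K') (algebraMap K K' x)) ∧
    (∀ y : K', sw (algebraMap K' (w.adicCompletion K') y)
      = algebraMap K' (w.adicCompletion K') (D.s.σ y)) ∧
    T6.IsLocalExt (v.adicCompletion K) (w.adicCompletion K') D.l e i sw ∧
    IsLocHaar305 (n w) μ' ∧ IsLocTor305 sw (locG305 w δ) μt' ∧
    IsLocCut305 sw (locG305 w δ) μt' β' ∧
    J = locTwInt340 sw μ' β' (φ₀ w) (locG305 w δ)

/-- `J` is THE LOCAL TWISTED INTEGRAL UPSTAIRS at the SPLIT place `v`, in the coordinates of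
`K_v`, with the local Haar measure and the local cut-off function DOWNSTAIRS. -/
def IsSplitVal340 (D : CompData K K')
    (φ₀ : ∀ w : HeightOneSpectrum (𝓞 K'), GL (Fin 2) (w.adicCompletion K') → ℂ)
    (δ : GL (Fin 2) K') {γ : GL (Fin 2) K} (L : LocData305 K γ)
    (v : HeightOneSpectrum (𝓞 K)) (J : ℂ) : Prop :=
  ∃ (hl : 0 < D.l) (w : ℕ → HeightOneSpectrum (𝓞 K'))
    (i : ∀ j : ℕ, v.adicCompletion K ≃+* (w j).adicCompletion K'),
    (∀ j : ℕ, PlaceOver K K' v (w j)) ∧
    (∀ j : ℕ, T5.PlaceRel D.s (w (j + 1)) (w j)) ∧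
    (∀ j : ℕ, 0 < j → j < D.l → w j ≠ w 0) ∧
    (∀ (j : ℕ) (x : K), i j (algebraMap K (v.adicCompletion K) x)
      = algebraMap K' ((w j).adicCompletion K') (algebraMap K K' x)) ∧
    (∀ (j : ℕ) (x : v.adicCompletion K), Valued.v (i j x) = Valued.v x) ∧
    J = splitInt340 D.l hl (L.μv v) (L.βv v)
        (fun j g => φ₀ (w j)
          (Matrix.GeneralLinearGroup.map ((i j : v.adicCompletion K ≃+* _) :
            v.adicCompletion K →+* (w j).adicCompletion K') g))
        (fun j => Matrix.GeneralLinearGroup.map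
          (((i j).symm : (w j).adicCompletion K' ≃+* _) :
            (w j).adicCompletion K' →+* v.adicCompletion K) (locG305 (w j) δ))

/-- `J` is THE LOCAL TWISTED INTEGRAL UPSTAIRS at the infinite place `v` for the index `j` of
the ray, in the `K`-coordinates, with the Haar measure `μc` and the cut-off function
DOWNSTAIRS.  `w a` are the places over `v` (`w (a+1) = w a ∘ σ`), `d a ∈ {1, conj}` the type of
`ι` at `w a`. -/
def IsArchVal340 (D : CompData K K') (ι : Adl K →+* Adl K')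
    (Φ : InfinitePlace K' → GL (Fin 2) ℂ → ℂ) (δ : GL (Fin 2) K') {γ : GL (Fin 2) K}
    (L : LocData305 K γ) (μc : @Measure (GL (Fin 2) ℂ) (borel _))
    (v : InfinitePlace K) (j : ℤ) (J : ℂ) : Prop :=
  ∃ (hl : 0 < D.l) (w : ℕ → InfinitePlace K') (d : ℕ → ℂ →+* ℂ),
    (∀ a : ℕ, (w a).comap (algebraMap K K') = v) ∧
    (∀ a : ℕ, w (a + 1) = (w a).comap (D.s.σ : K' →+* K')) ∧
    (∀ a a' : ℕ, a < D.l → a' < D.l → w a = w a' → a = a') ∧
    (∀ a : ℕ, d a = RingHom.id ℂ ∨ d a = starRingEnd ℂ) ∧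
    (∀ (a : ℕ) (x : Adl K), T5.infHom (w a) (ι x) = d a (T5.infHom v x)) ∧
    J = splitInt340 D.l hl μc (L.βc v) (fun a => Φ (w a))
        (fun a => Matrix.GeneralLinearGroup.map (d a)
          (infGL305 (w a) (T5.ratG δ * D.R'.r ^ j)))

variable (K K')

/-! ## 2. The node and the leaves -/

/-- **NODE C2.7.13.1 = UP-FACT (global → local upstairs, NO matching).**  See the header,
step 1.  The constant `c'_G` depends on `D`, `ι`, `μc`, `T₀`, `n`, `m` only.
Proof.  LOCAL DATA: at `v ∈ S` with one place `w` over it: `(e, i, s_w)` from `T6.InstExtC`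
(`s_w` is the component of `σ_𝔸`: `SigmaLocC305`, uniqueness by density), `μ'_w` and the
normalised Haar measure `μt'_w` of the twisted centraliser from `LocMeasC305`, `β'_w` from
`LocCutC305`; at a split `v ∈ S`: the places over `v` in the order of the orbit, `i_j` from
`T6.InstSplitC`; at `v ∣ ∞`: the `l` places over `v`, `d_a` from `IsAdeleBase305.inf`.
CUT-OFF: `β' = c_T⁻¹ 1_{Out_{S'}} ∏_{v ∈ S} β'_v ∏_{v ∣ ∞} β'_v` with `β'_v(y) = β'_w(y_w)`
(inert), `β_v(i_0⁻¹ y_{w_0})` (split), `β_v(d_0 y_{w_0})` (infinite).  SUPPORT: if the integrand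
does not vanish at `x` then `x⁻¹ δ σ(x)` is in `Out_{S'}` (`r'` is trivial at the finite places)
and `x = t x'`, `t ∈ T_𝔸(δ)`, `x' ∈ Out_{S'}` (helper159 `goodUnit_split159`, `GoodUnitTw.lean`;
the twisted form of `SuppDownC305`).  CUT-OFF PROPERTY: `T_𝔸(δ)` is commutative
(`TorCommC305`), `μT'` is the image of `μT` (`IsTorLinked305`), `ι(t) ∈ Out_{S'}` iff
`t ∈ Out_S`, `IsTorConst305`, the local torus measures correspond under `i` (normalised:
`i⁻¹(T'^c) = T^c`, local form of `T6.TwCentC`), Fubini for the finite product.  INTEGRAL: the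
sum over the ray is a finite sum, uniformly (`‖det (x⁻¹ δ σ(x) r'^j)‖ = 2^j`); for
`y ∈ Out_{S'}` the integrand is the product of the local integrands in the coordinates
(`SigmaLocC305`); `HaarSplitC305 K'` (levels `n`; `n (w j) = m v` at the split places of `S`:
`LocHyp305.split`; the images of `μ'_{w_j}` under `i_j⁻¹` are `μ_v`: uniqueness of the Haar
measure), Fubini grouped by the places of `K`; at the infinite places the change of variables
`z_a = d_a(y_{w_a})` (complex conjugation preserves `μc` and the `Φ_w`). -/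
def UpFactC340 : Prop :=
  T6.T6Out →
  ∀ D : CompData K K', IsCompData D → IsCycExt K K' D.l → D.l ≠ 2 → TotCplx K →
    ∀ ι : Adl K →+* Adl K', IsAdeleBase305 D.s D.l ι →
    ∀ μc : @Measure (GL (Fin 2) ℂ) (borel _), @Measure.IsHaarMeasure _ _ _ (borel _) μc →
    ∀ (T₀ : Finset (HeightOneSpectrum (𝓞 K))), UnramOut305 (K' := K') T₀ →
    ∀ (n : HeightOneSpectrum (𝓞 K') → ℕ) (m : HeightOneSpectrum (𝓞 K) → ℕ),
      IsLevelAt305 T₀ n m →
    ∃ cG' : ℝ, 0 < cG' ∧
      ∀ (S : Finset (HeightOneSpectrum (𝓞 K))) (S' : Finset (HeightOneSpectrum (𝓞 K'))),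
        T₀ ⊆ S → IsOver305 S S' →
      ∀ (φ₀ : ∀ w : HeightOneSpectrum (𝓞 K'), GL (Fin 2) (w.adicCompletion K') → ℂ)
        (Φ : InfinitePlace K' → GL (Fin 2) ℂ → ℂ)
        (f₀ : ∀ v : HeightOneSpectrum (𝓞 K), GL (Fin 2) (v.adicCompletion K) → ℂ)
        (F : InfinitePlace K → GL (Fin 2) ℂ → ℂ),
        LocHyp305 D μc S n m φ₀ Φ f₀ F →
      ∀ (δ : GL (Fin 2) K') (γ : GL (Fin 2) K), T6.IsEll γ →
        D.s.normUpTo D.l δ = Matrix.GeneralLinearGroup.map (algebraMap K K') γ →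
        GoodOut305 S γ → IntOut305 S' δ →
      ∀ (μT : @Measure (tA305 (T5.AdelicAut.id K) γ) (borel _))
        (μT' : @Measure (tA305 D.s δ) (borel _)),
        @Measure.IsHaarMeasure _ _ _ (borel _) μT →
        @Measure.IsHaarMeasure _ _ _ (borel _) μT' →
        IsTorLinked305 ι D.s δ γ μT μT' →
      ∀ (L : LocData305 K γ) (cT : ℝ), IsLocData305 m L → 0 < cT → IsTorConst305 γ μT L cT →
        ∃ (β' : G K' → ℝ) (J : HeightOneSpectrum (𝓞 K) → ℂ) (Jc : InfinitePlace K → ℤ → ℂ),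
          IsCutOn305 D.s δ μT' β'
              {x | T5.twTerm D.R'.r D.s (pure305 S' φ₀ Φ) δ x ≠ 0} ∧
            cutInt305 D.R'.r D.s (pure305 S' φ₀ Φ) δ D.R'.μ β'
              = ((cG' / cT : ℝ) : ℂ)
                * ∑' j : ℤ, (∏ v ∈ S, J v) * ∏ w : InfinitePlace K, Jc w j ∧
            (∀ v ∈ S, IsInertVal340 D n φ₀ δ v (J v) ∨ IsSplitVal340 D φ₀ δ L v (J v)) ∧
            ∀ (w : InfinitePlace K) (j : ℤ), IsArchVal340 D ι Φ δ L μc w j (Jc w j)

/-- **LEAF C2.7.13.2 = LOC-EQ-INERT (local; one place over `v`).**  The local twisted integral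
upstairs is the local integral downstairs.
Proof.  `K_v`, `K'_w` are local fields (`T6.InstLocalC`; the residue field of `K'_w` has
`q^{l/e}` elements: `e` is determined by `IsLocalExt.val_i`, `T6.InstExtC`).  `γ` is elliptic,
so `γ_v` is regular and `N δ_w = i(γ_v)` is regular (`twNorm s_w l δ_w` is the component of
`N δ`: `s_w` extends `σ`).  `T6.OrbSumExC` gives orbit sums `c` (upstairs, twisted) and `c'`
(downstairs, `k' = k`, `l = e = 1`); `T6.OrbSumIntC`: `J = c` and the integral downstairs is `c'`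
(`IsLocData305`: normalised measures, continuous cut-off; `T6.glAut 1 = 1`);
`LocHyp305.inert`: `c = c'`. -/
def LocEqInertC340 : Prop :=
  T6.T6Out →
  ∀ D : CompData K K', IsCompData D → IsCycExt K K' D.l → D.l ≠ 2 → TotCplx K →
    ∀ (μc : @Measure (GL (Fin 2) ℂ) (borel _)) (S : Finset (HeightOneSpectrum (𝓞 K)))
      (n : HeightOneSpectrum (𝓞 K') → ℕ) (m : HeightOneSpectrum (𝓞 K) → ℕ)
      (φ₀ : ∀ w : HeightOneSpectrum (𝓞 K'), GL (Fin 2) (w.adicCompletion K') → ℂ)
      (Φ : InfinitePlace K' → GL (Fin 2) ℂ → ℂ)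
      (f₀ : ∀ v : HeightOneSpectrum (𝓞 K), GL (Fin 2) (v.adicCompletion K) → ℂ)
      (F : InfinitePlace K → GL (Fin 2) ℂ → ℂ),
      LocHyp305 D μc S n m φ₀ Φ f₀ F →
    ∀ (δ : GL (Fin 2) K') (γ : GL (Fin 2) K), T6.IsEll γ →
      D.s.normUpTo D.l δ = Matrix.GeneralLinearGroup.map (algebraMap K K') γ →
    ∀ L : LocData305 K γ, IsLocData305 m L →
    ∀ v ∈ S, ∀ J : ℂ, IsInertVal340 D n φ₀ δ v J →
      J = locInt305 (L.μv v) (L.βv v) (f₀ v) (locG305 v γ)

/-- **LEAF C2.7.13.3 = LOC-EQ-SPLIT (local; split place).**  The local twisted integral upstairs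
is the local integral downstairs.
Proof.  `δ_0 δ_1 ⋯ δ_{l-1} = γ_v` (the component of `N δ = γ` at `w_0` in the coordinates of
`K_v`: `i_0⁻¹ ∘ s ∘ i_a = 1` on `K_v` by density).  Fubini and the split integral identity for
general `l` (helper159 `iterL_eq159`, helper584 `iterInt_eq_rconv584`; `T6.SplitInt3C` for
`l = 3`): the integral over `y_1, …, y_{l-1}` is the iterated convolution
`(φ_0 * ⋯ * φ_{l-1})(y_0⁻¹ γ_v y_0)` for the measure `μ_v`; `LocHyp305.split`
(`T6.IsConvProd` is the convolution for the measure with `vol U(m_v) = 1`, the levels agree):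
it is `f₀_v(y_0⁻¹ γ_v y_0)`.  Integrability: finite supports modulo `U`, `β_v` continuous. -/
def LocEqSplitC340 : Prop :=
  T6.T6Out →
  ∀ D : CompData K K', IsCompData D → IsCycExt K K' D.l → D.l ≠ 2 → TotCplx K →
    ∀ (μc : @Measure (GL (Fin 2) ℂ) (borel _)) (S : Finset (HeightOneSpectrum (𝓞 K)))
      (n : HeightOneSpectrum (𝓞 K') → ℕ) (m : HeightOneSpectrum (𝓞 K) → ℕ)
      (φ₀ : ∀ w : HeightOneSpectrum (𝓞 K'), GL (Fin 2) (w.adicCompletion K') → ℂ)
      (Φ : InfinitePlace K' → GL (Fin 2) ℂ → ℂ)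
      (f₀ : ∀ v : HeightOneSpectrum (𝓞 K), GL (Fin 2) (v.adicCompletion K) → ℂ)
      (F : InfinitePlace K → GL (Fin 2) ℂ → ℂ),
      LocHyp305 D μc S n m φ₀ Φ f₀ F →
    ∀ (δ : GL (Fin 2) K') (γ : GL (Fin 2) K), T6.IsEll γ →
      D.s.normUpTo D.l δ = Matrix.GeneralLinearGroup.map (algebraMap K K') γ →
    ∀ L : LocData305 K γ, IsLocData305 m L →
    ∀ v ∈ S, ∀ J : ℂ, IsSplitVal340 D φ₀ δ L v J →
      J = locInt305 (L.μv v) (L.βv v) (f₀ v) (locG305 v γ)

/-- **LEAF C2.7.13.4 = LOC-EQ-ARCH (local; infinite places).**  The local twisted integral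
upstairs for the index `j` of the ray is the local integral downstairs for the index `j`.
Proof.  `∏_a d_a((δ r'^j)_{w_a}) = (γ r^j)_v`: `d_a = c_a d_{a+1}` (`σ ι = ι`; `c_a` the type of
`σ_𝔸` at `w_a`, `SigmaLocC305`), so the product is `d_0` of the component of `N δ = γ` at `w_0`,
i.e. `γ_v`; the scalars: `ρ'^l = ρ` (`T5.IsRayGen` for `D.R'.r`, `D.R.r`: `IsCompData.frame`,
`frame'`; `[K':ℚ] = l [K:ℚ]`).  Fubini and the split integral identity for general `l` on
`GL₂(ℂ)` (helper159 `iterL_eq159`, helper584 `iterInt_eq_rconv584`): the integral over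
`z_1, …, z_{l-1}` is `convL305 μc (fun a => Φ (w a)) (l - 1) (z_0⁻¹ (γ r^j)_v z_0)`;
`LocHyp305.arch`: it is `F v (z_0⁻¹ (γ r^j)_v z_0)`.  Integrability: continuous functions with
compact support (`arch_up`), `β_v` continuous. -/
def LocEqArchC340 : Prop :=
  ∀ D : CompData K K', IsCompData D → IsCycExt K K' D.l → D.l ≠ 2 → TotCplx K →
    ∀ ι : Adl K →+* Adl K', IsAdeleBase305 D.s D.l ι →
    ∀ μc : @Measure (GL (Fin 2) ℂ) (borel _), @Measure.IsHaarMeasure _ _ _ (borel _) μc →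
    ∀ (S : Finset (HeightOneSpectrum (𝓞 K)))
      (n : HeightOneSpectrum (𝓞 K') → ℕ) (m : HeightOneSpectrum (𝓞 K) → ℕ)
      (φ₀ : ∀ w : HeightOneSpectrum (𝓞 K'), GL (Fin 2) (w.adicCompletion K') → ℂ)
      (Φ : InfinitePlace K' → GL (Fin 2) ℂ → ℂ)
      (f₀ : ∀ v : HeightOneSpectrum (𝓞 K), GL (Fin 2) (v.adicCompletion K) → ℂ)
      (F : InfinitePlace K → GL (Fin 2) ℂ → ℂ),
      LocHyp305 D μc S n m φ₀ Φ f₀ F →
    ∀ (δ : GL (Fin 2) K') (γ : GL (Fin 2) K), T6.IsEll γ →
      D.s.normUpTo D.l δ = Matrix.GeneralLinearGroup.map (algebraMap K K') γ →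
    ∀ L : LocData305 K γ, IsLocData305 m L →
    ∀ (w : InfinitePlace K) (j : ℤ) (J : ℂ), IsArchVal340 D ι Φ δ L μc w j J →
      J = locInt305 μc (L.βc w) (F w) (infGL305 w (T5.ratG γ * D.R.r ^ j))

end TwoFields

/-! ## Appendix: the equation lemmas of the definitions are realised HERE -/

theorem eqns_realisedFU340 : True := by
  have _a1 := @locTwInt340.eq_1
  have _a2 := @locTwInt340.eq_def
  have _a3 := @locTwInt340.eq_unfold
  have _b1 := @cycSucc340.eq_1
  have _b2 := @cycSucc340.eq_def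
  have _b3 := @cycSucc340.eq_unfold
  have _c1 := @splitInt340.eq_1
  have _c2 := @splitInt340.eq_def
  have _c3 := @splitInt340.eq_unfold
  have _d1 := @IsInertVal340.eq_1
  have _d2 := @IsInertVal340.eq_def
  have _d3 := @IsInertVal340.eq_unfold
  have _e1 := @IsSplitVal340.eq_1
  have _e2 := @IsSplitVal340.eq_def
  have _e3 := @IsSplitVal340.eq_unfold
  have _f1 := @IsArchVal340.eq_1
  have _f2 := @IsArchVal340.eq_def
  have _f3 := @IsArchVal340.eq_unfold
  have _g1 := @UpFactC340.eq_1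
  have _g2 := @UpFactC340.eq_def
  have _g3 := @UpFactC340.eq_unfold
  have _h1 := @LocEqInertC340.eq_1
  have _h2 := @LocEqInertC340.eq_def
  have _h3 := @LocEqInertC340.eq_unfold
  have _i1 := @LocEqSplitC340.eq_1
  have _i2 := @LocEqSplitC340.eq_def
  have _i3 := @LocEqSplitC340.eq_unfold
  have _j1 := @LocEqArchC340.eq_1
  have _j2 := @LocEqArchC340.eq_def
  have _j3 := @LocEqArchC340.eq_unfold
  trivial

end Fermat.Agent.LT.T7.H340

end
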