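import Mathlib
import Fermat.Agent.LT.T7.H340.FactUpSpec
import Fermat.Agent.LT.T7.H558.FactDownSpec

/-!
# Row LT, tower T7, node C2.7.13.1 `UpFactC340` (owner helper340, registry row 2620):
# THE SECOND CUT -- Spec

OFF-MAIN.  Definitions and frozen Props only (the proved tops are in `UpFactTop.lean`).  No
hole, nothing assumed.  ADDITIVE (new names only, suffix `340`).  Vocabulary:
`T7/H340/FactUpSpec.lean` (sha256 786596dd), `T7/H558/FactDownSpec.lean` (helper558, sha256
8043f526), `T7/H305/MatchCut.lean` (0f302b81) and their imports, byte-identical copies.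

    upFactC_of_parts340 : UpDatC340 K K' → CutOnUpC340 K K' → FactIntUpC340 K K'
                            → UpFactC340 K K'                                   (PROVED)

## The cut (mirror of the cut of `FactDownC305` by helper558, with the places GROUPED over `K`)

0. LOCAL DATA UPSTAIRS (`UpDat340`, `IsUpDat340`; part `UpDatC340`).  `S = S_in ⊔ S_sp`:
   * `v ∈ S_in` (ONE place `w` over `v`), `InertDat340`: `(w, e, i, s_w, μ'_w, μt'_w, β'_w)` as
     in `IsInertVal340`, and moreover `(σ_𝔸 a)_w = s_w(a_w)`, `(ι x)_w = i(x_v)`, and the torus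
     measure `μt'_w` is the image of the torus measure `μt_v` downstairs under `i`;
   * `v ∈ S_sp` (split), `SplitDat340`: `(w_j, i_j)` as in `IsSplitVal340`, and moreover the
     `w_a`, `a < l`, are distinct and ALL the places over `v`,
     `i_a⁻¹((σ_𝔸 x)_{w_a}) = i_{a+1}⁻¹(x_{w_{a+1}})` (indices modulo `l`), `(ι x)_{w_a} = i_a(x_v)`;
   * `v ∣ ∞`, `ArchDat340`: `(w_a, d_a)` as in `IsArchVal340`, and moreover the `w_a`, `a < l`,
     are ALL the places over `v`, `d_a((σ_𝔸 x)_{w_a}) = d_{a+1}(x_{w_{a+1}})` (modulo `l`).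
1. THE CUT-OFF `upCut340 = c_T⁻¹ 1_{Out_{S'}} ∏_{S_in} β'_w(y_w) ∏_{S_sp} β_v(i_0⁻¹ y_{w_0})
   ∏_{v ∣ ∞} β_v(d_0 y_{w_0})`, THE VALUES `upJ340`, `upJc340` (the local twisted integrals of
   `FactUpSpec.lean` for the data).
2. Part A `CutOnUpC340`: `upCut340` is a cut-off on the support of the integrand.  Leaves:
   `SuppOutUpC340` (support in `Out`), `SuppUpC340` (twisted form of `SuppDownC305`),
   `CutOnOutUpC340` (the integral over the torus is `1` on `Out_{S'}`), `TorCommC305 K'`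
   (closed), measurability (`OutOpenC558 K'`, `CompContC558 K'`, `IsoContC340`).
3. Part B `FactIntUpC340`: the integral.  Leaves: `GrpSplitC340` (the Haar measure of
   `GL₂(𝔸_{K'})` on `Out_{S'}` in the GROUPED coordinates is `c'_G` times the product measure),
   `PtFactUpC340` (pointwise factorisation), `RayFinUpC340` (finite sum over the ray,
   uniformly), `ArchIntblUpC340` (integrability at the infinite places).

FALSITY CHECKS (helper340).  `sig` at a split place for `a = l - 1`: `w_l = w_0` (the fibre is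
`{w_0, …, w_{l-1}}`, `σ` permutes it) and `i_l = i_0` as maps to `K'_{w_0}` (density), so the
statement with `cycSucc340` is the true one.  Infinite places: `d_a = c_a ∘ d_{a+1}`
(`σ ι = ι`, `T5.infHom v` onto), `c_a` the type of `σ_𝔸` at `w_a`, so
`d_a((σ x)_{w_a}) = d_a c_a(x_{w_{a+1}}) = d_{a+1}(x_{w_{a+1}})`.  `link`: `i` maps the
centraliser of `γ_v` onto the twisted centraliser of `δ_w` (local `T6.TwCentC`) and
`{tr integral, det unit}` onto itself (`val_i`, `e > 0`), so the image of the normalised Haar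
measure is the normalised Haar measure: the data exist.  `RayFinUpC340`: only the PRODUCT over
the places over `v` vanishes uniformly (`∏_a det(Z_a⁻¹ δ_a Z_{a+1}) = ∏_a det δ_a`).
`GrpSplitC340`: the constant is the constant of `HaarSplitC305 K'` for the levels `n`; at the
split places the image of `μ_v` under `i_a` is the normalised Haar measure for the level
`n (w_a) = m v` (hypothesis `hlev`, from `LocHyp305.split`); complex conjugation preserves `μc`.
-/

set_option autoImplicit false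

open AutomorphicForm IsDedekindDomain NumberField MeasureTheory
open scoped ComplexConjugate

noncomputable section

namespace Fermat.Agent.LT.T7.H340

open Fermat.Agent.LT.H556 Fermat.Agent.LT.H556.A0 Fermat.Agent.LT.T7 Fermat.Agent.LT.T7.H305
open Fermat.Agent.LT.T7.H558

attribute [local instance] Fermat.Agent.LT.T5.instMeasurableSpaceG

section TwoFields

variable {K K' : Type} [Field K] [NumberField K] [Field K'] [NumberField K'] [Algebra K K']

/-! ## 0. The local data upstairs -/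

/-- Local data upstairs at a finite place `v` with ONE place over it. -/
structure InertDat340 (δ : GL (Fin 2) K') (v : HeightOneSpectrum (𝓞 K)) where
  /-- the place over `v` -/
  w : HeightOneSpectrum (𝓞 K')
  /-- the ramification index -/
  e : ℕ
  /-- the embedding of the completions -/
  i : v.adicCompletion K →+* w.adicCompletion K'
  /-- the local automorphism -/
  sw : w.adicCompletion K' ≃+* w.adicCompletion K'
  /-- the Haar measure of `GL₂(K'_w)` -/
  μ' : @Measure (GL (Fin 2) (w.adicCompletion K')) (borel _)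
  /-- the Haar measure of the twisted centraliser -/
  μt' : @Measure (T6.twCentSub (T6.glAut sw) (locG305 w δ)) (borel _)
  /-- the cut-off function -/
  β' : GL (Fin 2) (w.adicCompletion K') → ℝ

/-- Local data upstairs at a split finite place `v`. -/
structure SplitDat340 (K' : Type) [Field K'] [NumberField K'] (v : HeightOneSpectrum (𝓞 K)) where
  /-- the places over `v` -/
  w : ℕ → HeightOneSpectrum (𝓞 K')
  /-- the identifications of the completions -/
  i : ∀ j : ℕ, v.adicCompletion K ≃+* (w j).adicCompletion K'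

/-- Local data upstairs at an infinite place. -/
structure ArchDat340 (K' : Type) [Field K'] [NumberField K'] where
  /-- the places over `v` -/
  w : ℕ → InfinitePlace K'
  /-- the types of `ι` -/
  d : ℕ → ℂ →+* ℂ

/-- The properties of the local data at a place with ONE place over it. -/
structure IsInertDat340 (D : CompData K K') (ι : Adl K →+* Adl K')
    (n : HeightOneSpectrum (𝓞 K') → ℕ) {δ : GL (Fin 2) K'} {γ : GL (Fin 2) K}
    (L : LocData305 K γ) {v : HeightOneSpectrum (𝓞 K)} (d : InertDat340 δ v) : Prop where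
  ovr : PlaceOver K K' v d.w
  uniq : ∀ w' : HeightOneSpectrum (𝓞 K'), PlaceOver K K' v w' → w' = d.w
  rat_i : ∀ x : K, d.i (algebraMap K (v.adicCompletion K) x)
    = algebraMap K' (d.w.adicCompletion K') (algebraMap K K' x)
  rat_s : ∀ y : K', d.sw (algebraMap K' (d.w.adicCompletion K') y)
    = algebraMap K' (d.w.adicCompletion K') (D.s.σ y)
  ext : T6.IsLocalExt (v.adicCompletion K) (d.w.adicCompletion K') D.l d.e d.i d.sw
  haar : IsLocHaar305 (n d.w) d.μ'
  tor : IsLocTor305 d.sw (locG305 d.w δ) d.μt'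
  cut : IsLocCut305 d.sw (locG305 d.w δ) d.μt' d.β'
  sig : ∀ a : Adl K', T5.finHom d.w (D.s.σA a) = d.sw (T5.finHom d.w a)
  iot : ∀ x : Adl K, T5.finHom d.w (ι x) = d.i (T5.finHom v x)
  link : ∀ A : Set (GL (Fin 2) (d.w.adicCompletion K')), @MeasurableSet _ (borel _) A →
    d.μt' {t | (t : GL (Fin 2) (d.w.adicCompletion K')) ∈ A}
      = L.μt v {t | Matrix.GeneralLinearGroup.map d.i (t : GL (Fin 2) (v.adicCompletion K)) ∈ A}

/-- The properties of the local data at a split place. -/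
structure IsSplitDat340 (D : CompData K K') (ι : Adl K →+* Adl K')
    {v : HeightOneSpectrum (𝓞 K)} (d : SplitDat340 K' v) : Prop where
  pos : 0 < D.l
  ovr : ∀ j : ℕ, PlaceOver K K' v (d.w j)
  rel : ∀ j : ℕ, T5.PlaceRel D.s (d.w (j + 1)) (d.w j)
  ne : ∀ j : ℕ, 0 < j → j < D.l → d.w j ≠ d.w 0
  rat_i : ∀ (j : ℕ) (x : K), d.i j (algebraMap K (v.adicCompletion K) x)
    = algebraMap K' ((d.w j).adicCompletion K') (algebraMap K K' x)
  val_i : ∀ (j : ℕ) (x : v.adicCompletion K), Valued.v (d.i j x) = Valued.v x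
  inj : ∀ a b : ℕ, a < D.l → b < D.l → d.w a = d.w b → a = b
  exh : ∀ w' : HeightOneSpectrum (𝓞 K'), PlaceOver K K' v w' → ∃ a : ℕ, a < D.l ∧ w' = d.w a
  sig : ∀ (a : Fin D.l) (x : Adl K'),
    (d.i a.1).symm (T5.finHom (d.w a.1) (D.s.σA x))
      = (d.i (cycSucc340 a).1).symm (T5.finHom (d.w (cycSucc340 a).1) x)
  iot : ∀ (a : ℕ) (x : Adl K), T5.finHom (d.w a) (ι x) = d.i a (T5.finHom v x)

/-- The properties of the local data at an infinite place. -/
structure IsArchDat340 (D : CompData K K') (ι : Adl K →+* Adl K') (v : InfinitePlace K)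
    (d : ArchDat340 K') : Prop where
  pos : 0 < D.l
  ovr : ∀ a : ℕ, (d.w a).comap (algebraMap K K') = v
  rel : ∀ a : ℕ, d.w (a + 1) = (d.w a).comap (D.s.σ : K' →+* K')
  inj : ∀ a a' : ℕ, a < D.l → a' < D.l → d.w a = d.w a' → a = a'
  typ : ∀ a : ℕ, d.d a = RingHom.id ℂ ∨ d.d a = starRingEnd ℂ
  iot : ∀ (a : ℕ) (x : Adl K), T5.infHom (d.w a) (ι x) = d.d a (T5.infHom v x)
  exh : ∀ w' : InfinitePlace K', w'.comap (algebraMap K K') = v → ∃ a : ℕ, a < D.l ∧ w' = d.w a
  sig : ∀ (a : Fin D.l) (x : Adl K'),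
    d.d a.1 (T5.infHom (d.w a.1) (D.s.σA x))
      = d.d (cycSucc340 a).1 (T5.infHom (d.w (cycSucc340 a).1) x)

/-- THE LOCAL DATA UPSTAIRS for `S = Sin ⊔ Ssp` and the infinite places. -/
structure UpDat340 (K : Type) [Field K] [NumberField K] {K' : Type} [Field K'] [NumberField K']
    (δ : GL (Fin 2) K') where
  /-- the places of `S` with ONE place over them -/
  Sin : Finset (HeightOneSpectrum (𝓞 K))
  /-- the split places of `S` -/
  Ssp : Finset (HeightOneSpectrum (𝓞 K))
  /-- the data at the places of `Sin` -/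
  dI : ∀ v : Sin, InertDat340 δ v.1
  /-- the data at the places of `Ssp` -/
  dS : ∀ v : Ssp, SplitDat340 K' v.1
  /-- the data at the infinite places -/
  dA : InfinitePlace K → ArchDat340 K'

/-- The properties of the local data upstairs. -/
structure IsUpDat340 (D : CompData K K') (ι : Adl K →+* Adl K')
    (n : HeightOneSpectrum (𝓞 K') → ℕ) {δ : GL (Fin 2) K'} {γ : GL (Fin 2) K}
    (L : LocData305 K γ) (S : Finset (HeightOneSpectrum (𝓞 K))) (U : UpDat340 K δ) : Prop where
  pos : 0 < D.l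
  union : ∀ v : HeightOneSpectrum (𝓞 K), v ∈ S ↔ v ∈ U.Sin ∨ v ∈ U.Ssp
  disj : ∀ v : HeightOneSpectrum (𝓞 K), v ∈ U.Sin → v ∉ U.Ssp
  inert : ∀ v : U.Sin, IsInertDat340 D ι n L (U.dI v)
  split : ∀ v : U.Ssp, IsSplitDat340 D ι (U.dS v)
  arch : ∀ v : InfinitePlace K, IsArchDat340 D ι v (U.dA v)

/-! ## 1. The coordinates, the cut-off, the values -/

/-- The coordinates of `y ∈ GL₂(𝔸_{K'})` at a split place `v`, in `GL₂(K_v)^l`. -/
def coordS340 {v : HeightOneSpectrum (𝓞 K)} (d : SplitDat340 K' v) (l : ℕ) (y : G K') :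
    Fin l → GL (Fin 2) (v.adicCompletion K) :=
  fun a => Matrix.GeneralLinearGroup.map
    (((d.i a.1).symm : (d.w a.1).adicCompletion K' ≃+* _) :
      (d.w a.1).adicCompletion K' →+* v.adicCompletion K) (finGL305 (d.w a.1) y)

/-- The `K`-coordinates of `y ∈ GL₂(𝔸_{K'})` at an infinite place, in `GL₂(ℂ)^l`. -/
def coordA340 (d : ArchDat340 K') (l : ℕ) (y : G K') : Fin l → GL (Fin 2) ℂ :=
  fun a => Matrix.GeneralLinearGroup.map (d.d a.1) (infGL305 (d.w a.1) y)

/-- The integrand of `locTwInt340`. -/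
def twFn340 {k : Type} [Field k] [Valued k T6.Γ₀] (s : k ≃+* k) (β : GL (Fin 2) k → ℝ)
    (φ : GL (Fin 2) k → ℂ) (δ : GL (Fin 2) k) : GL (Fin 2) k → ℂ :=
  fun x => φ (x⁻¹ * δ * T6.glAut s x) * ((β x : ℝ) : ℂ)

/-- The twisted product `∏_{a < l} φ_a(y_a⁻¹ δ_a y_{a+1})` (indices modulo `l`). -/
def cycProd340 {H : Type} [Group H] (l : ℕ) (φ : ℕ → H → ℂ) (δ : ℕ → H) (y : Fin l → H) : ℂ :=
  ∏ j : Fin l, φ j.1 ((y j)⁻¹ * δ j.1 * y (cycSucc340 j))

/-- The integrand of `splitInt340`. -/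
def splitFn340 {H : Type} [Group H] (l : ℕ) (hl : 0 < l) (β : H → ℝ) (φ : ℕ → H → ℂ)
    (δ : ℕ → H) : (Fin l → H) → ℂ :=
  fun y => cycProd340 l φ δ y * ((β (y ⟨0, hl⟩) : ℝ) : ℂ)

/-- The components of the test function at a split place in the coordinates of `K_v`. -/
def phiS340 (φ₀ : ∀ w : HeightOneSpectrum (𝓞 K'), GL (Fin 2) (w.adicCompletion K') → ℂ)
    {v : HeightOneSpectrum (𝓞 K)} (d : SplitDat340 K' v) :
    ℕ → GL (Fin 2) (v.adicCompletion K) → ℂ :=
  fun j g => φ₀ (d.w j)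
    (Matrix.GeneralLinearGroup.map ((d.i j : v.adicCompletion K ≃+* _) :
      v.adicCompletion K →+* (d.w j).adicCompletion K') g)

/-- The components of `δ` at a split place in the coordinates of `K_v`. -/
def delS340 (δ : GL (Fin 2) K') {v : HeightOneSpectrum (𝓞 K)} (d : SplitDat340 K' v) :
    ℕ → GL (Fin 2) (v.adicCompletion K) :=
  fun j => Matrix.GeneralLinearGroup.map
    (((d.i j).symm : (d.w j).adicCompletion K' ≃+* _) :
      (d.w j).adicCompletion K' →+* v.adicCompletion K) (locG305 (d.w j) δ)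

/-- The components of `δ r'^j` at an infinite place in the `K`-coordinates. -/
def delA340 (r' : G K') (δ : GL (Fin 2) K') (d : ArchDat340 K') (j : ℤ) : ℕ → GL (Fin 2) ℂ :=
  fun a => Matrix.GeneralLinearGroup.map (d.d a) (infGL305 (d.w a) (T5.ratG δ * r' ^ j))

open Classical in
/-- THE CUT-OFF UPSTAIRS for the local data `U`. -/
def upCut340 (S' : Finset (HeightOneSpectrum (𝓞 K'))) (cT : ℝ) {γ : GL (Fin 2) K}
    (L : LocData305 K γ) {δ : GL (Fin 2) K'} (U : UpDat340 K δ) (y : G K') : ℝ :=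
  if OutT305 S' y then
    cT⁻¹ * (∏ v : U.Sin, (U.dI v).β' (finGL305 (U.dI v).w y))
      * (∏ v : U.Ssp, L.βv v.1
          (Matrix.GeneralLinearGroup.map
            ((((U.dS v).i 0).symm : ((U.dS v).w 0).adicCompletion K' ≃+* _) :
              ((U.dS v).w 0).adicCompletion K' →+* (v.1).adicCompletion K)
            (finGL305 ((U.dS v).w 0) y)))
      * ∏ v : InfinitePlace K, L.βc v
          (Matrix.GeneralLinearGroup.map ((U.dA v).d 0) (infGL305 ((U.dA v).w 0) y))
  else 0

open Classical in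
/-- THE VALUES at the finite places for the local data `U`. -/
def upJ340 (l : ℕ) (hl : 0 < l)
    (φ₀ : ∀ w : HeightOneSpectrum (𝓞 K'), GL (Fin 2) (w.adicCompletion K') → ℂ)
    {γ : GL (Fin 2) K} (L : LocData305 K γ) {δ : GL (Fin 2) K'} (U : UpDat340 K δ)
    (v : HeightOneSpectrum (𝓞 K)) : ℂ :=
  if h : v ∈ U.Sin then
    locTwInt340 (U.dI ⟨v, h⟩).sw (U.dI ⟨v, h⟩).μ' (U.dI ⟨v, h⟩).β' (φ₀ (U.dI ⟨v, h⟩).w)
      (locG305 (U.dI ⟨v, h⟩).w δ)
  else if h' : v ∈ U.Ssp then
    splitInt340 l hl (L.μv v) (L.βv v) (phiS340 φ₀ (U.dS ⟨v, h'⟩)) (delS340 δ (U.dS ⟨v, h'⟩))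
  else 0

/-- THE VALUES at the infinite places for the local data `U`. -/
def upJc340 (l : ℕ) (hl : 0 < l) (r' : G K') (Φ : InfinitePlace K' → GL (Fin 2) ℂ → ℂ)
    {γ : GL (Fin 2) K} (L : LocData305 K γ) (μc : @Measure (GL (Fin 2) ℂ) (borel _))
    {δ : GL (Fin 2) K'} (U : UpDat340 K δ) (v : InfinitePlace K) (j : ℤ) : ℂ :=
  splitInt340 l hl μc (L.βc v) (fun a => Φ ((U.dA v).w a)) (delA340 r' δ (U.dA v) j)

/-- THE GROUPED COORDINATES of `y ∈ GL₂(𝔸_{K'})`. -/
def upCoord340 {δ : GL (Fin 2) K'} (U : UpDat340 K δ) (l : ℕ) (y : G K') :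
    (∀ v : U.Sin, GL (Fin 2) ((U.dI v).w.adicCompletion K')) ×
      ((∀ v : U.Ssp, Fin l → GL (Fin 2) ((v : HeightOneSpectrum (𝓞 K)).adicCompletion K)) ×
        (InfinitePlace K → Fin l → GL (Fin 2) ℂ)) :=
  (fun v => finGL305 (U.dI v).w y,
    (fun v => coordS340 (U.dS v) l y, fun v => coordA340 (U.dA v) l y))

variable (K K')

/-! ## 2. The three parts -/

/-- **PART 0 = UP-DAT (the local data upstairs exist).**
Proof.  Dichotomy at `v ∈ S`: one place over `v`, or the places over `v` are `w_0, …, w_{l-1}`,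
`w_j = σ(w_{j+1})`, distinct (`H584.SplitOrUniqueC584`, closed; the Galois group acts
transitively on the places over `v`).  ONE place: `(e, i, s_w)` from `T6.InstExtC`, `sig` from
`SigmaLocC305 K'` (`PlaceRel s w w`; uniqueness of the continuous extension of `σ`), `iot` from
`IsAdeleBase305.fin` (uniqueness of `i` by density), `μ'` from `LocMeasC305` (`T6.InstLocalC`),
`μt'` = the image of `L.μt v` under `i` (local `T6.TwCentC`: `i` maps the centraliser of `γ_v`
onto the twisted centraliser of `δ_w`; `N δ_w = i(γ_v)` regular), `β'` from `LocCutC305`.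
SPLIT: `T6.InstSplitC`; `sig`: `i_a⁻¹ ∘ s ∘ i_{a+1}` is a continuous automorphism of `K_v`
which is the identity on `K`.  INFINITE: the `l` places over `v` (`H193.FibCardC`, closed),
`d_a` from `IsAdeleBase305.inf`, `sig` from `SigmaLocC305 K'` and `IsAdeleBase305.fixed`. -/
def UpDatC340 : Prop :=
  T6.T6Out →
  ∀ D : CompData K K', IsCompData D → IsCycExt K K' D.l → D.l ≠ 2 → TotCplx K →
    ∀ ι : Adl K →+* Adl K', IsAdeleBase305 D.s D.l ι →
    ∀ (T₀ : Finset (HeightOneSpectrum (𝓞 K))), UnramOut305 (K' := K') T₀ →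
    ∀ (n : HeightOneSpectrum (𝓞 K') → ℕ) (m : HeightOneSpectrum (𝓞 K) → ℕ),
      IsLevelAt305 T₀ n m →
    ∀ (S : Finset (HeightOneSpectrum (𝓞 K))) (S' : Finset (HeightOneSpectrum (𝓞 K'))),
      T₀ ⊆ S → IsOver305 S S' →
    ∀ (δ : GL (Fin 2) K') (γ : GL (Fin 2) K), T6.IsEll γ →
      D.s.normUpTo D.l δ = Matrix.GeneralLinearGroup.map (algebraMap K K') γ →
    ∀ L : LocData305 K γ, IsLocData305 m L →
      ∃ U : UpDat340 K δ, IsUpDat340 D ι n L S U

/-- **PART A = CUT-ON-UP (the cut-off part).**  For all local data upstairs `upCut340` is a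
cut-off function on the support of the integrand. -/
def CutOnUpC340 : Prop :=
  T6.T6Out →
  ∀ D : CompData K K', IsCompData D → IsCycExt K K' D.l → D.l ≠ 2 → TotCplx K →
    ∀ ι : Adl K →+* Adl K', IsAdeleBase305 D.s D.l ι →
    ∀ (T₀ : Finset (HeightOneSpectrum (𝓞 K))), UnramOut305 (K' := K') T₀ →
    ∀ (n : HeightOneSpectrum (𝓞 K') → ℕ) (m : HeightOneSpectrum (𝓞 K) → ℕ),
      IsLevelAt305 T₀ n m →
    ∀ (S : Finset (HeightOneSpectrum (𝓞 K))) (S' : Finset (HeightOneSpectrum (𝓞 K'))),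
      T₀ ⊆ S → IsOver305 S S' →
    ∀ (φ₀ : ∀ w : HeightOneSpectrum (𝓞 K'), GL (Fin 2) (w.adicCompletion K') → ℂ)
      (Φ : InfinitePlace K' → GL (Fin 2) ℂ → ℂ),
    ∀ (δ : GL (Fin 2) K') (γ : GL (Fin 2) K), T6.IsEll γ →
      D.s.normUpTo D.l δ = Matrix.GeneralLinearGroup.map (algebraMap K K') γ →
      GoodOut305 S γ → IntOut305 S' δ →
    ∀ (μT : @Measure (tA305 (T5.AdelicAut.id K) γ) (borel _))
      (μT' : @Measure (tA305 D.s δ) (borel _)),
      @Measure.IsHaarMeasure _ _ _ (borel _) μT →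
      @Measure.IsHaarMeasure _ _ _ (borel _) μT' →
      IsTorLinked305 ι D.s δ γ μT μT' →
    ∀ (L : LocData305 K γ) (cT : ℝ), IsLocData305 m L → 0 < cT → IsTorConst305 γ μT L cT →
    ∀ U : UpDat340 K δ, IsUpDat340 D ι n L S U →
      IsCutOn305 D.s δ μT' (upCut340 S' cT L U)
        {x | T5.twTerm D.R'.r D.s (pure305 S' φ₀ Φ) δ x ≠ 0}

/-- **PART B = FACT-INT-UP (the integral part).**  The constant `c'_G` depends on `D`, `μc`,
`T₀`, `n` only. -/
def FactIntUpC340 : Prop :=
  T6.T6Out →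
  ∀ D : CompData K K', IsCompData D → IsCycExt K K' D.l → D.l ≠ 2 → TotCplx K →
    ∀ ι : Adl K →+* Adl K', IsAdeleBase305 D.s D.l ι →
    ∀ μc : @Measure (GL (Fin 2) ℂ) (borel _), @Measure.IsHaarMeasure _ _ _ (borel _) μc →
    ∀ (T₀ : Finset (HeightOneSpectrum (𝓞 K))), UnramOut305 (K' := K') T₀ →
    ∀ (n : HeightOneSpectrum (𝓞 K') → ℕ) (m : HeightOneSpectrum (𝓞 K) → ℕ),
      IsLevelAt305 T₀ n m →
    ∃ cG' : ℝ, 0 < cG' ∧
      ∀ (S : Finset (HeightOneSpectrum (𝓞 K))) (S' : Finset (HeightOneSpectrum (𝓞 K'))),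
        T₀ ⊆ S → IsOver305 S S' →
      ∀ (φ₀ : ∀ w : HeightOneSpectrum (𝓞 K'), GL (Fin 2) (w.adicCompletion K') → ℂ)
        (Φ : InfinitePlace K' → GL (Fin 2) ℂ → ℂ)
        (f₀ : ∀ v : HeightOneSpectrum (𝓞 K), GL (Fin 2) (v.adicCompletion K) → ℂ)
        (F : InfinitePlace K → GL (Fin 2) ℂ → ℂ),
        LocHyp305 D μc S n m φ₀ Φ f₀ F →
      ∀ (δ : GL (Fin 2) K') (γ : GL (Fin 2) K), T6.IsEll γ →
        D.s.normUpTo D.l δ = Matrix.GeneralLinearGroup.map (algebraMap K K') γ →
        GoodOut305 S γ → IntOut305 S' δ →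
      ∀ (L : LocData305 K γ) (cT : ℝ), IsLocData305 m L → 0 < cT →
      ∀ (U : UpDat340 K δ) (hU : IsUpDat340 D ι n L S U),
        cutInt305 D.R'.r D.s (pure305 S' φ₀ Φ) δ D.R'.μ (upCut340 S' cT L U)
          = ((cG' / cT : ℝ) : ℂ)
            * ∑' j : ℤ, (∏ v ∈ S, upJ340 D.l hU.pos φ₀ L U v)
                * ∏ w : InfinitePlace K, upJc340 D.l hU.pos D.R'.r Φ L μc U w j

/-! ## 3. The leaves of part A -/

/-- **LEAF UF.A1 = SUPP-OUT-UP (ONE field, any automorphism).**  On the support of the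
integrand (pure tensor, twisted): `x⁻¹ δ σ(x) ∈ Out_{S}`.
Proof.  As `SuppOutC558`: a non-zero `tsum` has a non-zero term, `r^j` is trivial at the finite
places. -/
def SuppOutUpC340 : Prop :=
  ∀ r : G K, T5.IsRayGen r →
    ∀ (s : T5.AdelicAut K) (S : Finset (HeightOneSpectrum (𝓞 K)))
      (f₀ : ∀ v : HeightOneSpectrum (𝓞 K), GL (Fin 2) (v.adicCompletion K) → ℂ)
      (F : InfinitePlace K → GL (Fin 2) ℂ → ℂ) (δ : GL (Fin 2) K) (x : G K),
      T5.twTerm r s (pure305 S f₀ F) δ x ≠ 0 →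
        OutT305 S (x⁻¹ * T5.ratG δ * s.onG x)

/-- **LEAF UF.A2 = SUPP-UP (the twisted form of `SuppDownC305`).**  If `N δ = γ` is good outside
`S`, `δ` is integral outside `S'`, the places outside `S` are unramified and `x⁻¹ δ σ(x)` is in
`GL₂(𝒪_w)` for `w ∉ S'`, then `x = t x'` with `t ∈ T_𝔸(δ)` and `x'_w ∈ GL₂(𝒪_w)` for `w ∉ S'`.
Proof.  Local statements at `v ∉ S` (unramified): ONE place over `v`: helper159
`goodUnit_up159` (`GoodUnitTw.lean`; `K'_w/K_v` unramified, `T6.InstExtC`); split: helper159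
`goodUnit_split159` (all places over `v` at once, in the coordinates of `K_v`).  `x_w` is in
`GL₂(𝒪_w)` for almost all `w`: `t = 1` there; the local `t`'s (finitely many `≠ 1`) define an
element of `T_𝔸(δ)` (`SigmaLocC305 K'`), as in the proof of `SuppDownC305` (helper941). -/
def SuppUpC340 : Prop :=
  T6.T6Out →
  ∀ D : CompData K K', IsCompData D → IsCycExt K K' D.l → D.l ≠ 2 → TotCplx K →
    ∀ (T₀ : Finset (HeightOneSpectrum (𝓞 K))), UnramOut305 (K' := K') T₀ →
    ∀ (S : Finset (HeightOneSpectrum (𝓞 K))) (S' : Finset (HeightOneSpectrum (𝓞 K'))),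
      T₀ ⊆ S → IsOver305 S S' →
    ∀ (δ : GL (Fin 2) K') (γ : GL (Fin 2) K), T6.IsEll γ →
      D.s.normUpTo D.l δ = Matrix.GeneralLinearGroup.map (algebraMap K K') γ →
      GoodOut305 S γ → IntOut305 S' δ →
    ∀ x : G K', OutT305 S' (x⁻¹ * T5.ratG δ * D.s.onG x) →
      ∃ t : G K', t ∈ tA305 D.s δ ∧ OutT305 S' (t⁻¹ * x)

/-- **LEAF UF.A3 = CUT-ON-OUT-UP.**  For `x' ∈ Out_{S'}`: `∫_{T_𝔸(δ)} β'(t x') dμT'(t) = 1` for
the cut-off `β' = upCut340 S' cT L U`.
Proof.  `IsTorLinked305`: the integral is `∫_{T_𝔸(γ)} β'(ι(t) x') dμT(t)`;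
`ι(t) x' ∈ Out_{S'} ⟺ t ∈ Out_S` (`IsAdeleBase305.fin`: `v(i x) = v(x)^e`, `e > 0`; every place
outside `S'` lies over a place outside `S`, every place outside `S` has a place over it);
`β'(ι(t) x')` is a function of `compS305 S t`:
`c_T⁻¹ ∏_{S_in} β'_w(i(t_v) x'_w) ∏_{S_sp} β_v(t_v · i_0⁻¹(x'_{w_0})) ∏_{v ∣ ∞} β_v(t_v · d_0(x'_{w_0}))`
(`iot`; `d_0 ∘ d_0 = 1`); `IsTorConst305` (the constant `c_T` cancels), Fubini for products (no
integrability needed, σ-finite measures); `link` + `IsLocCut305` at `S_in`, `IsLocCut305` at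
`S_sp`, `IsCut305` at the infinite places. -/
def CutOnOutUpC340 : Prop :=
  HaarSigmaC558 K → CompContC558 K → CompContC558 K' →
  ∀ D : CompData K K', IsCompData D → IsCycExt K K' D.l → D.l ≠ 2 → TotCplx K →
    ∀ ι : Adl K →+* Adl K', IsAdeleBase305 D.s D.l ι →
    ∀ (n : HeightOneSpectrum (𝓞 K') → ℕ) (m : HeightOneSpectrum (𝓞 K) → ℕ)
      (S : Finset (HeightOneSpectrum (𝓞 K))) (S' : Finset (HeightOneSpectrum (𝓞 K'))),
      IsOver305 S S' →
    ∀ (δ : GL (Fin 2) K') (γ : GL (Fin 2) K), T6.IsEll γ →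
      D.s.normUpTo D.l δ = Matrix.GeneralLinearGroup.map (algebraMap K K') γ →
      GoodOut305 S γ →
    ∀ (μT : @Measure (tA305 (T5.AdelicAut.id K) γ) (borel _))
      (μT' : @Measure (tA305 D.s δ) (borel _)),
      @Measure.IsHaarMeasure _ _ _ (borel _) μT →
      @Measure.IsHaarMeasure _ _ _ (borel _) μT' →
      IsTorLinked305 ι D.s δ γ μT μT' →
    ∀ (L : LocData305 K γ) (cT : ℝ), IsLocData305 m L → 0 < cT → IsTorConst305 γ μT L cT →
    ∀ U : UpDat340 K δ, IsUpDat340 D ι n L S U →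
    ∀ x' : G K', OutT305 S' x' →
      @integral _ _ _ _ (borel _) μT'
        (fun t : tA305 D.s δ => upCut340 S' cT L U ((t : G K') * x')) = 1

/-- **ASSET LEAF UF.A4 = ISO-CONT (abstract valued fields).**  A ring homomorphism of valued
fields with `v(i x) = v(x)^e`, `e > 0`, is continuous, and so is `GL₂(i)`.
Proof.  `i` is uniformly continuous (`v(i x - i y) = v(x - y)^e`); `Units.map` of a continuous
homomorphism of topological monoids is continuous (entries of `g` and of `g⁻¹`). -/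
def IsoContC340 : Prop :=
  ∀ (k k' : Type) [Field k] [Field k'] [Valued k T6.Γ₀] [Valued k' T6.Γ₀] (e : ℕ)
    (i : k →+* k'), 0 < e → (∀ x : k, Valued.v (i x) = Valued.v x ^ e) →
    Continuous i ∧ Continuous (Matrix.GeneralLinearGroup.map (n := Fin 2) i)

/-! ## 4. The leaves of part B -/

/-- **LEAF UF.B1 = GRP-SPLIT (the Haar measure of `GL₂(𝔸_{K'})` in the GROUPED coordinates).**
There is a constant `c'_G > 0` (depending on `D`, `μc`, `T₀`, `n` only) such that for all
`S ⊇ T₀` and all local data upstairs: the image of `μ'` restricted to `Out_{S'}` under the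
grouped coordinates is `c'_G` times the product measure
`⊗_{S_in} μ'_w ⊗ ⊗_{S_sp} μ_v^{⊗ l} ⊗ ⊗_{v ∣ ∞} μc^{⊗ l}`.
Proof.  `HaarSplitC305 K'` (closed by helper74; levels `n`, base set = the places over `T₀`,
local measures: `μ'_w` at `S_in`, the image of `μ_v` under `i_a` at `w_a`, `v ∈ S_sp`
(normalised for the level `n (w_a) = m v`: `hlev`; `i_a` preserves the valuation), any
normalised Haar measure elsewhere (`LocMeasC305`, `T6.InstLocalC`)); the grouped coordinates are
the composition of `compS305 S'` with a measure preserving map: regrouping of a finite product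
measure along the fibres of `S' → S` (`MeasurableEquiv.piCongrLeft`, `MeasurableEquiv.piCurry`,
`Measure.pi_eq` on boxes), `GL₂(i_a⁻¹)` at the split places (`measurePreserving_pi`), `GL₂(d_a)`
at the infinite places (complex conjugation is a continuous automorphism of order `2` of
`GL₂(ℂ)`: it preserves the Haar measure). -/
def GrpSplitC340 : Prop :=
  T6.T6Out →
  ∀ D : CompData K K', IsCompData D → IsCycExt K K' D.l → D.l ≠ 2 → TotCplx K →
    ∀ ι : Adl K →+* Adl K', IsAdeleBase305 D.s D.l ι →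
    ∀ μc : @Measure (GL (Fin 2) ℂ) (borel _), @Measure.IsHaarMeasure _ _ _ (borel _) μc →
    ∀ (T₀ : Finset (HeightOneSpectrum (𝓞 K))), UnramOut305 (K' := K') T₀ →
    ∀ (n : HeightOneSpectrum (𝓞 K') → ℕ) (m : HeightOneSpectrum (𝓞 K) → ℕ),
      IsLevelAt305 T₀ n m →
    ∃ cG' : ℝ, 0 < cG' ∧
      ∀ (S : Finset (HeightOneSpectrum (𝓞 K))) (S' : Finset (HeightOneSpectrum (𝓞 K'))),
        T₀ ⊆ S → IsOver305 S S' →
      ∀ (δ : GL (Fin 2) K') (γ : GL (Fin 2) K) (L : LocData305 K γ), IsLocData305 m L →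
      ∀ U : UpDat340 K δ, IsUpDat340 D ι n L S U →
        (∀ (v : U.Ssp) (a : ℕ), n ((U.dS v).w a) = m v.1) →
        letI : ∀ w : HeightOneSpectrum (𝓞 K'),
            MeasurableSpace (GL (Fin 2) (w.adicCompletion K')) := fun _ => borel _
        letI : ∀ v : HeightOneSpectrum (𝓞 K),
            MeasurableSpace (GL (Fin 2) (v.adicCompletion K)) := fun _ => borel _
        letI : MeasurableSpace (GL (Fin 2) ℂ) := borel _
        Measure.map (upCoord340 U D.l) (D.R'.μ.restrict {y | OutT305 S' y})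
          = ENNReal.ofReal cG' •
            ((Measure.pi fun v : U.Sin => (U.dI v).μ').prod
              ((Measure.pi fun v : U.Ssp => Measure.pi fun _ : Fin D.l => L.μv v.1).prod
                (Measure.pi fun _ : InfinitePlace K => Measure.pi fun _ : Fin D.l => μc)))

/-- **LEAF UF.B2 = PT-FACT-UP (pointwise factorisation upstairs).**  For `y ∈ Out_{S'}` and `δ`
integral outside `S'` the term `j` of the integrand is the product of the local terms in the
grouped coordinates.
Proof.  `σ(y) ∈ Out_{S'}` (`SigmaLocC305 K'`: `(σ y)_w = s(y_{σ⁻¹ w})`, `s` preserves the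
valuation, `S'` is stable under `σ`), so `y⁻¹ δ σ(y) r'^j ∈ Out_{S'}`; `S'` is the disjoint
union of the fibres (`IsOver305`, `uniq`, `exh`, `inj`); `sig`; `r'` is trivial at the finite
places and central at the infinite places; `Φ_w ∘ conj = Φ_w`, `d_a ∘ d_a = 1`. -/
def PtFactUpC340 : Prop :=
  ∀ D : CompData K K', IsCompData D → IsCycExt K K' D.l → D.l ≠ 2 → TotCplx K →
    ∀ ι : Adl K →+* Adl K', IsAdeleBase305 D.s D.l ι →
    ∀ (n : HeightOneSpectrum (𝓞 K') → ℕ)
      (S : Finset (HeightOneSpectrum (𝓞 K))) (S' : Finset (HeightOneSpectrum (𝓞 K'))),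
      IsOver305 S S' →
    ∀ (φ₀ : ∀ w : HeightOneSpectrum (𝓞 K'), GL (Fin 2) (w.adicCompletion K') → ℂ)
      (Φ : InfinitePlace K' → GL (Fin 2) ℂ → ℂ),
      (∀ (w : InfinitePlace K') (g : GL (Fin 2) ℂ), Φ w (conjGL305 g) = Φ w g) →
    ∀ (δ : GL (Fin 2) K') (γ : GL (Fin 2) K), IntOut305 S' δ →
    ∀ (L : LocData305 K γ) (U : UpDat340 K δ), IsUpDat340 D ι n L S U →
    ∀ (y : G K') (j : ℤ), OutT305 S' y →
      pure305 S' φ₀ Φ (y⁻¹ * T5.ratG δ * D.s.onG y * D.R'.r ^ j)
        = (∏ v : U.Sin, φ₀ (U.dI v).w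
              ((finGL305 (U.dI v).w y)⁻¹ * locG305 (U.dI v).w δ
                * T6.glAut (U.dI v).sw (finGL305 (U.dI v).w y)))
          * (∏ v : U.Ssp, cycProd340 D.l (phiS340 φ₀ (U.dS v)) (delS340 δ (U.dS v))
              (coordS340 (U.dS v) D.l y))
          * ∏ v : InfinitePlace K, cycProd340 D.l (fun a => Φ ((U.dA v).w a))
              (delA340 D.R'.r δ (U.dA v) j) (coordA340 (U.dA v) D.l y)

/-- **LEAF UF.B3 = RAY-FIN-UP.**  The sum over the ray is finite, uniformly: there is a finite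
set `J` of exponents such that for `j ∉ J` the twisted product at every infinite place `v`
vanishes identically.
Proof.  If the product does not vanish, every factor is in the support of `Φ_{w_a}`
(compact): `|det|` of the `a`-th argument lies in `[m_a, M_a]`, `0 < m_a`; the product of the
determinants is `∏_a det δ_a · t^{2 j l}` (`cycSucc340` is a permutation, `|det d(X)| = |det X|`,
`r'` has the scalar `t > 1`, `T5.IsRayGen`): finitely many `j`, finitely many `v`. -/
def RayFinUpC340 : Prop :=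
  ∀ D : CompData K K', IsCompData D →
    ∀ ι : Adl K →+* Adl K',
    ∀ Φ : InfinitePlace K' → GL (Fin 2) ℂ → ℂ,
      (∀ w : InfinitePlace K', Continuous (Φ w) ∧ HasCompactSupport (Φ w)) →
    ∀ (δ : GL (Fin 2) K') (dA : InfinitePlace K → ArchDat340 K'),
      (∀ v : InfinitePlace K, IsArchDat340 D ι v (dA v)) →
      ∃ J : Finset ℤ, ∀ j : ℤ, j ∉ J →
        ∀ (v : InfinitePlace K) (Z : Fin D.l → GL (Fin 2) ℂ),
          cycProd340 D.l (fun a => Φ ((dA v).w a)) (delA340 D.R'.r δ (dA v) j) Z = 0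

/-- **LEAF UF.B4 = ARCH-INTBL-UP (integrability at the infinite places).**  The integrand of
`upJc340` is integrable on `GL₂(ℂ)^l`.
Proof.  Tonelli: the integral of the absolute value over `Z_1, …, Z_{l-1}` is the iterated
convolution of the `|Φ_{w_a}|` (continuous, compact support) at `Z_0⁻¹ (∏_a δ_a) Z_0`, and
`∏_a δ_a = (γ)_v t^{j l}` (`sig` for rational elements, `iot`, `N δ = γ`); `ArchIntblC558`
(helper558) for the cut-off `L.βc v` of the centraliser of `γ_v` (`IsLocData305.cutc`; `γ_v` is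
regular: `γ` is elliptic). -/
def ArchIntblUpC340 : Prop :=
  ArchIntblC558 →
  ∀ D : CompData K K', IsCompData D → IsCycExt K K' D.l → D.l ≠ 2 → TotCplx K →
    ∀ ι : Adl K →+* Adl K', IsAdeleBase305 D.s D.l ι →
    ∀ μc : @Measure (GL (Fin 2) ℂ) (borel _), @Measure.IsHaarMeasure _ _ _ (borel _) μc →
    ∀ Φ : InfinitePlace K' → GL (Fin 2) ℂ → ℂ,
      (∀ w : InfinitePlace K', Continuous (Φ w) ∧ HasCompactSupport (Φ w)) →
    ∀ (δ : GL (Fin 2) K') (γ : GL (Fin 2) K), T6.IsEll γ →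
      D.s.normUpTo D.l δ = Matrix.GeneralLinearGroup.map (algebraMap K K') γ →
    ∀ (m : HeightOneSpectrum (𝓞 K) → ℕ) (L : LocData305 K γ), IsLocData305 m L →
    ∀ (v : InfinitePlace K) (d : ArchDat340 K'), IsArchDat340 D ι v d →
    ∀ (hl : 0 < D.l) (j : ℤ),
      letI : MeasurableSpace (GL (Fin 2) ℂ) := borel _
      Integrable (splitFn340 D.l hl (L.βc v) (fun a => Φ (d.w a)) (delA340 D.R'.r δ d j))
        (Measure.pi fun _ : Fin D.l => μc)

end TwoFields

/-! ## Appendix: the equation lemmas of the definitions are realised HERE -/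

theorem eqns_realisedUF340 : True := by
  have _a1 := @coordS340.eq_1
  have _a2 := @coordS340.eq_def
  have _a3 := @coordS340.eq_unfold
  have _b1 := @coordA340.eq_1
  have _b2 := @coordA340.eq_def
  have _b3 := @coordA340.eq_unfold
  have _c1 := @twFn340.eq_1
  have _c2 := @twFn340.eq_def
  have _c3 := @twFn340.eq_unfold
  have _d1 := @cycProd340.eq_1
  have _d2 := @cycProd340.eq_def
  have _d3 := @cycProd340.eq_unfold
  have _e1 := @splitFn340.eq_1
  have _e2 := @splitFn340.eq_def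
  have _e3 := @splitFn340.eq_unfold
  have _f1 := @phiS340.eq_1
  have _f2 := @phiS340.eq_def
  have _f3 := @phiS340.eq_unfold
  have _g1 := @delS340.eq_1
  have _g2 := @delS340.eq_def
  have _g3 := @delS340.eq_unfold
  have _h1 := @delA340.eq_1
  have _h2 := @delA340.eq_def
  have _h3 := @delA340.eq_unfold
  have _i1 := @upCut340.eq_1
  have _i2 := @upCut340.eq_def
  have _i3 := @upCut340.eq_unfold
  have _j1 := @upJ340.eq_1
  have _j2 := @upJ340.eq_def
  have _j3 := @upJ340.eq_unfold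
  have _k1 := @upJc340.eq_1
  have _k2 := @upJc340.eq_def
  have _k3 := @upJc340.eq_unfold
  have _l1 := @upCoord340.eq_1
  have _l2 := @upCoord340.eq_def
  have _l3 := @upCoord340.eq_unfold
  have _m1 := @UpDatC340.eq_1
  have _m2 := @UpDatC340.eq_def
  have _m3 := @UpDatC340.eq_unfold
  have _n1 := @CutOnUpC340.eq_1
  have _n2 := @CutOnUpC340.eq_def
  have _n3 := @CutOnUpC340.eq_unfold
  have _o1 := @FactIntUpC340.eq_1
  have _o2 := @FactIntUpC340.eq_def
  have _o3 := @FactIntUpC340.eq_unfold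
  have _p1 := @SuppOutUpC340.eq_1
  have _p2 := @SuppOutUpC340.eq_def
  have _p3 := @SuppOutUpC340.eq_unfold
  have _q1 := @SuppUpC340.eq_1
  have _q2 := @SuppUpC340.eq_def
  have _q3 := @SuppUpC340.eq_unfold
  have _r1 := @CutOnOutUpC340.eq_1
  have _r2 := @CutOnOutUpC340.eq_def
  have _r3 := @CutOnOutUpC340.eq_unfold
  have _s1 := @IsoContC340.eq_1
  have _s2 := @IsoContC340.eq_def
  have _s3 := @IsoContC340.eq_unfold
  have _t1 := @GrpSplitC340.eq_1
  have _t2 := @GrpSplitC340.eq_def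
  have _t3 := @GrpSplitC340.eq_unfold
  have _u1 := @PtFactUpC340.eq_1
  have _u2 := @PtFactUpC340.eq_def
  have _u3 := @PtFactUpC340.eq_unfold
  have _v1 := @RayFinUpC340.eq_1
  have _v2 := @RayFinUpC340.eq_def
  have _v3 := @RayFinUpC340.eq_unfold
  have _w1 := @ArchIntblUpC340.eq_1
  have _w2 := @ArchIntblUpC340.eq_def
  have _w3 := @ArchIntblUpC340.eq_unfold
  trivial

end Fermat.Agent.LT.T7.H340

end
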