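import Fermat.Agent.LT.T7.H340.IwLocal
import Fermat.Agent.LT.T7.Level2

/-!
# Row LT, tower T7, helper340: KIT for the Iwahori operator `𝒰 = iwOp` of `T7/Level2.lean`

OFF-MAIN.  Vocabulary: `T7/Level2.lean` (sha256 15516646, helper797), `T5/Spec.lean` v4, A0;
tools of helper129 (byte-identical copies).  General number field `K`, finite place `w`.

* `inIwahori_iff340` : `T5.InIwahori w g ↔ IsIwG340 Valued.v (finCompHom129 w g)`;
  `inIwahori_one340 / _mul340 / _inv340`.
* `isIwT340_of_inIwahoriCoset` : the shape of the component at `w` of an element of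
  `I diag(ϖ, 1) I`.
* **`exists_iwCosetSystem340 w : ∃ H, IsIwCosetSystem w H`** (the standard system
  `[[ϖ, r], [0, 1]]`, `r` running over representatives of `𝓞 K ⧸ w`).
* **`iwCosetSystem_complete340`** : for a coset system `H` every `g ∈ I diag(ϖ,1) I` (at `w`)
  has exactly one `h ∈ H` with `h⁻¹ g ∈ I`.
* **`iwSum_indep340`**, `iwOp_indep340` : on functions right invariant under the elements
  supported at `w` lying in the Iwahori subgroup, `∑ h ∈ H, φ (g * h)` (hence `iwOp w H φ`)
  does not depend on the coset system `H`.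
-/

set_option autoImplicit false

open IsDedekindDomain NumberField IsDedekindDomain.HeightOneSpectrum
open Fermat.Agent.LT.H556 Fermat.Agent.LT.H556.A0 Fermat.Agent.LT.H129

noncomputable section

namespace Fermat.Agent.LT.T7.H340

variable {K : Type} [Field K] [NumberField K] (w : HeightOneSpectrum (𝓞 K))

/-- The valuation of `K_w`. -/
abbrev vw340 : Valuation (w.adicCompletion K) (WithZero (Multiplicative ℤ)) := Valued.v

theorem inIwahori_iff340 (g : G K) :
    T5.InIwahori w g ↔ IsIwG340 (vw340 w) (finCompHom129 w g) := by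
  unfold T5.InIwahori IsIwG340 IsIntegralAt
  rw [← map_inv, coe_finCompHom129, coe_finCompHom129]
  simp only [mem_adicCompletionIntegers]

theorem inIwahori_one340 : T5.InIwahori w (1 : G K) := by
  rw [inIwahori_iff340, map_one]; exact isIwG340_one

variable {w}

theorem inIwahori_mul340 {g h : G K} (hg : T5.InIwahori w g) (hh : T5.InIwahori w h) :
    T5.InIwahori w (g * h) := by
  rw [inIwahori_iff340] at *
  rw [map_mul]; exact isIwG340_mul hg hh

theorem inIwahori_inv340 {g : G K} (hg : T5.InIwahori w g) : T5.InIwahori w g⁻¹ := by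
  rw [inIwahori_iff340] at *
  rw [map_inv]; exact isIwG340_inv hg

/-- The shape of the component at `w` of an element of `I diag(ϖ, 1) I`. -/
theorem isIwT340_of_inIwahoriCoset {g : G K} (hg : T5.InIwahoriCoset w 1 g) :
    IsIwT340 (vw340 w) (finCompHom129 w g) := by
  obtain ⟨k₁, k₂, t, c, hk₁, hk₂, hc, ht, hgk⟩ := hg
  have e : finCompHom129 w g = finCompHom129 w k₁ * finCompHom129 w t * finCompHom129 w k₂ := by
    rw [← map_mul, ← map_mul]
    exact Units.ext hgk
  rw [e]
  refine isIwT340_of_mul ((inIwahori_iff340 w k₁).1 hk₁) ((inIwahori_iff340 w k₂).1 hk₂)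
    (c := c) ?_ ?_
  · rw [hc]; simp
  · rw [coe_finCompHom129]; exact ht

/-! ## The residue invariant -/

open Classical in
/-- The residue of `M 0 1 / M 1 1`. -/
def iwRes340 (w : HeightOneSpectrum (𝓞 K)) (M : GL (Fin 2) (w.adicCompletion K)) :
    IsLocalRing.ResidueField (w.adicCompletionIntegers K) :=
  if h : (M : Matrix (Fin 2) (Fin 2) (w.adicCompletion K)) 0 1
      / (M : Matrix (Fin 2) (Fin 2) (w.adicCompletion K)) 1 1 ∈ w.adicCompletionIntegers K then
    IsLocalRing.residue (w.adicCompletionIntegers K)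
      ⟨(M : Matrix (Fin 2) (Fin 2) (w.adicCompletion K)) 0 1
        / (M : Matrix (Fin 2) (Fin 2) (w.adicCompletion K)) 1 1, h⟩
  else 0

theorem quot_mem340 {M : GL (Fin 2) (w.adicCompletion K)} (hM : IsIwT340 (vw340 w) M) :
    (M : Matrix (Fin 2) (Fin 2) (w.adicCompletion K)) 0 1
      / (M : Matrix (Fin 2) (Fin 2) (w.adicCompletion K)) 1 1 ∈ w.adicCompletionIntegers K := by
  rw [mem_adicCompletionIntegers, map_div₀]
  have h11 : Valued.v ((M : Matrix (Fin 2) (Fin 2) (w.adicCompletion K)) 1 1) = 1 := hM.2.2.2.2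
  rw [h11, div_one]
  exact hM.1 0 1

theorem val_of_iwRes_eq340 {M M' : GL (Fin 2) (w.adicCompletion K)}
    (hM : IsIwT340 (vw340 w) M) (hM' : IsIwT340 (vw340 w) M')
    (h : iwRes340 w M = iwRes340 w M') :
    vw340 w ((M : Matrix (Fin 2) (Fin 2) (w.adicCompletion K)) 0 1
        * (M' : Matrix (Fin 2) (Fin 2) (w.adicCompletion K)) 1 1
      - (M' : Matrix (Fin 2) (Fin 2) (w.adicCompletion K)) 0 1
        * (M : Matrix (Fin 2) (Fin 2) (w.adicCompletion K)) 1 1) < 1 := by
  have h11 : Valued.v ((M : Matrix (Fin 2) (Fin 2) (w.adicCompletion K)) 1 1) = 1 := hM.2.2.2.2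
  have h11' : Valued.v ((M' : Matrix (Fin 2) (Fin 2) (w.adicCompletion K)) 1 1) = 1 :=
    hM'.2.2.2.2
  have hne : (M : Matrix (Fin 2) (Fin 2) (w.adicCompletion K)) 1 1 ≠ 0 := by
    intro h0; rw [h0, map_zero] at h11; exact zero_ne_one h11
  have hne' : (M' : Matrix (Fin 2) (Fin 2) (w.adicCompletion K)) 1 1 ≠ 0 := by
    intro h0; rw [h0, map_zero] at h11'; exact zero_ne_one h11'
  unfold iwRes340 at h
  rw [dif_pos (quot_mem340 hM), dif_pos (quot_mem340 hM')] at h
  have h0 : IsLocalRing.residue (w.adicCompletionIntegers K)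
      (⟨_, quot_mem340 hM⟩ - ⟨_, quot_mem340 hM'⟩) = 0 := by
    rw [map_sub, h, sub_self]
  rw [residue_eq_zero_iff_valued129] at h0
  have hsub : (((⟨_, quot_mem340 hM⟩ - ⟨_, quot_mem340 hM'⟩ : w.adicCompletionIntegers K) :
      w.adicCompletionIntegers K) : w.adicCompletion K)
      = ((M : Matrix (Fin 2) (Fin 2) (w.adicCompletion K)) 0 1
          * (M' : Matrix (Fin 2) (Fin 2) (w.adicCompletion K)) 1 1
        - (M' : Matrix (Fin 2) (Fin 2) (w.adicCompletion K)) 0 1
          * (M : Matrix (Fin 2) (Fin 2) (w.adicCompletion K)) 1 1)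
        / ((M : Matrix (Fin 2) (Fin 2) (w.adicCompletion K)) 1 1
          * (M' : Matrix (Fin 2) (Fin 2) (w.adicCompletion K)) 1 1) := by
    push_cast
    field_simp
  rw [hsub, map_div₀, map_mul, h11, h11', one_mul, div_one] at h0
  exact h0

/-- Same residue ⇒ equivalent modulo the Iwahori subgroup. -/
theorem inIwahori_inv_mul_of_res340 {g g' : G K} (hg : T5.InIwahoriCoset w 1 g)
    (hg' : T5.InIwahoriCoset w 1 g')
    (h : iwRes340 w (finCompHom129 w g) = iwRes340 w (finCompHom129 w g')) :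
    T5.InIwahori w (g⁻¹ * g') := by
  rw [inIwahori_iff340, map_mul, map_inv]
  exact isIwG340_inv_mul (isIwT340_of_inIwahoriCoset hg) (isIwT340_of_inIwahoriCoset hg')
    (val_of_iwRes_eq340 (isIwT340_of_inIwahoriCoset hg) (isIwT340_of_inIwahoriCoset hg') h)

/-! ## Completeness and independence -/

/-- **Completeness of the Iwahori coset systems of `T7/Level2.lean`.** -/
theorem iwCosetSystem_complete340 {H : Finset (G K)} (hH : IsIwCosetSystem w H) {g : G K}
    (hg : T5.InIwahoriCoset w 1 g) :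
    ∃ h ∈ H, T5.InIwahori w (h⁻¹ * g) ∧ T5.InIwahori w (g⁻¹ * h) ∧
      ∀ h' ∈ H, T5.InIwahori w (h'⁻¹ * g) → h' = h := by
  classical
  obtain ⟨hcard, hmem, hne⟩ := hH
  haveI : Finite (IsLocalRing.ResidueField (w.adicCompletionIntegers K)) :=
    finite_residueField129 K w
  letI : Fintype (IsLocalRing.ResidueField (w.adicCompletionIntegers K)) := Fintype.ofFinite _
  have hinj : Set.InjOn (fun h : G K => iwRes340 w (finCompHom129 w h)) (H : Set (G K)) := by
    intro a ha b hb hab
    by_contra hne'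
    exact hne a ha b hb hne'
      (inIwahori_inv_mul_of_res340 (hmem a ha).2 (hmem b hb).2 hab)
  have himg : H.image (fun h : G K => iwRes340 w (finCompHom129 w h)) = Finset.univ := by
    apply Finset.eq_univ_of_card
    rw [Finset.card_image_of_injOn hinj, hcard, ← card_residueField129 K w,
      Nat.card_eq_fintype_card]
  have hin : iwRes340 w (finCompHom129 w g)
      ∈ H.image (fun h : G K => iwRes340 w (finCompHom129 w h)) := by
    rw [himg]; exact Finset.mem_univ _
  obtain ⟨h, hh, hres⟩ := Finset.mem_image.mp hin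
  have h1 : T5.InIwahori w (h⁻¹ * g) := inIwahori_inv_mul_of_res340 (hmem h hh).2 hg hres
  have h2 : T5.InIwahori w (g⁻¹ * h) := by
    have e : g⁻¹ * h = (h⁻¹ * g)⁻¹ := by group
    rw [e]; exact inIwahori_inv340 h1
  refine ⟨h, hh, h1, h2, ?_⟩
  intro h' hh' h3
  by_contra hne'
  apply hne h' hh' h hh hne'
  have e : h'⁻¹ * h = (h'⁻¹ * g) * (g⁻¹ * h) := by group
  rw [e]
  exact inIwahori_mul340 h3 h2

/-- **The Iwahori sum does not depend on the coset system.** -/
theorem iwSum_indep340 {H H' : Finset (G K)} (hH : IsIwCosetSystem w H)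
    (hH' : IsIwCosetSystem w H') {M : Type*} [AddCommMonoid M] (φ : G K → M)
    (hφ : ∀ u : G K, IsLocalAtFin w u → T5.InIwahori w u → ∀ g : G K, φ (g * u) = φ g)
    (g : G K) : ∑ h ∈ H, φ (g * h) = ∑ h ∈ H', φ (g * h) := by
  classical
  have key : ∀ {A B : Finset (G K)}, IsIwCosetSystem w A → IsIwCosetSystem w B →
      ∀ h ∈ A, ∃ h' ∈ B, T5.InIwahori w (h'⁻¹ * h) ∧ T5.InIwahori w (h⁻¹ * h') ∧
        ∀ h'' ∈ B, T5.InIwahori w (h''⁻¹ * h) → h'' = h' := by
    intro A B hA hB h hh
    exact iwCosetSystem_complete340 hB (hA.2.1 h hh).2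
  choose! σ hσ using key hH hH'
  choose! τ hτ using key hH' hH
  refine Finset.sum_nbij' σ τ (fun h hh => (hσ h hh).1) (fun h hh => (hτ h hh).1) ?_ ?_ ?_
  · intro h hh
    exact ((hτ (σ h) (hσ h hh).1).2.2.2 h hh (hσ h hh).2.2.1).symm
  · intro h hh
    exact ((hσ (τ h) (hτ h hh).1).2.2.2 h hh (hτ h hh).2.2.1).symm
  · intro h hh
    have hu : IsLocalAtFin w ((σ h)⁻¹ * h) :=
      isLocalAtFin_mul129 (isLocalAtFin_inv129 (hH'.2.1 _ (hσ h hh).1).1) (hH.2.1 h hh).1
    have := hφ _ hu (hσ h hh).2.1 (g * σ h)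
    rw [← this]
    congr 1
    group

/-- The operator `iwOp` does not depend on the coset system. -/
theorem iwOp_indep340 {H H' : Finset (G K)} (hH : IsIwCosetSystem w H)
    (hH' : IsIwCosetSystem w H') (ψ : G K → ℂ)
    (hψ : ∀ u : G K, IsLocalAtFin w u → T5.InIwahori w u → ∀ g : G K, ψ (g * u) = ψ g) :
    iwOp w H ψ = iwOp w H' ψ := by
  funext x
  unfold iwOp
  rw [iwSum_indep340 hH hH' ψ hψ x]

/-! ## Existence -/

section Generic

variable {F : Type*} [Field F] {v : Valuation F (WithZero (Multiplicative ℤ))}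

theorem isIwG340_upper {r : F} (hr : v r ≤ 1) : IsIwG340 v (upperU129 r) := by
  have key : ∀ x : F, v x ≤ 1 →
      ∀ i j, v (((upperU129 x : GL (Fin 2) F) : Matrix (Fin 2) (Fin 2) F) i j) ≤ 1 := by
    intro x hx i j
    fin_cases i <;> fin_cases j <;> simp [upperU129, hx]
  refine ⟨key r hr, ?_, ?_⟩
  · rw [upperU129_inv]
    exact key (-r) (by rw [Valuation.map_neg]; exact hr)
  · simp [upperU129]

theorem upper_mul_diag340 {π : F} (hπ : π ≠ 0) (r : F) :
    upperU129 r * mkGL129 π 0 0 1 (by simpa using hπ) = mkGL129 π r 0 1 (by simpa using hπ) := by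
  apply ext_mat129
  rw [Matrix.GeneralLinearGroup.coe_mul]
  simp only [upperU129, coe_mkGL129]
  ext i j
  fin_cases i <;> fin_cases j <;> simp [Matrix.mul_apply, Fin.sum_univ_two]

end Generic

variable (w)

/-- The standard representatives of `I diag(ϖ, 1) I / I`: `[[ϖ, r], [0, 1]]`. -/
def stdIw340 (π : w.adicCompletion K) (hπ : π ≠ 0) (c : 𝓞 K ⧸ w.asIdeal) : G K :=
  stdHecke129 w π hπ (some c)

theorem stdIw340_props {π : w.adicCompletion K} (hπ : Valued.v π = WithZero.exp (-1 : ℤ))
    (c : 𝓞 K ⧸ w.asIdeal) :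
    IsLocalAtFin w (stdIw340 w π (unif_ne_zero129 w hπ) c) ∧
      T5.InIwahoriCoset w 1 (stdIw340 w π (unif_ne_zero129 w hπ) c) := by
  have hπ0 := unif_ne_zero129 w hπ
  refine ⟨(stdHecke129_props w hπ (some c)).1, ?_⟩
  refine ⟨locFin129 w (upperU129 (rep129 w c)),
    1, locFin129 w (mkGL129 π 0 0 1 (by simpa using hπ0)), π, ?_, inIwahori_one340 w, ?_, ?_, ?_⟩
  · rw [inIwahori_iff340, finCompHom129_locFin129]
    exact isIwG340_upper ((mem_adicCompletionIntegers _ _ _).1 (rep129_mem w c))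
  · rw [hπ]; simp
  · rw [finComp_locFin129, coe_mkGL129]
  · rw [mul_one, ← map_mul, upper_mul_diag340 hπ0]
    rfl

/-- **Iwahori coset systems exist.** -/
theorem exists_iwCosetSystem340 : ∃ H : Finset (G K), IsIwCosetSystem w H := by
  classical
  obtain ⟨π, hπ⟩ := exists_unif129 w
  haveI : Finite (𝓞 K ⧸ w.asIdeal) := by
    apply Nat.finite_of_card_ne_zero
    rw [← Submodule.cardQuot_apply, ← Ideal.absNorm_apply]
    exact ne_of_gt (lt_trans Nat.zero_lt_one (NumberField.HeightOneSpectrum.one_lt_absNorm w))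
  letI : Fintype (𝓞 K ⧸ w.asIdeal) := Fintype.ofFinite _
  have hni : ∀ a b : 𝓞 K ⧸ w.asIdeal, a ≠ b →
      ¬ T5.InIwahori w ((stdIw340 w π (unif_ne_zero129 w hπ) a)⁻¹
        * stdIw340 w π (unif_ne_zero129 w hπ) b) := by
    intro a b hab hI
    exact stdHecke129_not_int w hπ (a := some a) (b := some b)
      (fun e => hab (Option.some.inj e)) hI.1
  have hinj : Function.Injective (stdIw340 w π (unif_ne_zero129 w hπ)) := by
    intro a b hab
    by_contra hne
    apply hni a b hne
    rw [hab, inv_mul_cancel]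
    exact inIwahori_one340 w
  refine ⟨Finset.univ.image (stdIw340 w π (unif_ne_zero129 w hπ)), ?_, ?_, ?_⟩
  · rw [Finset.card_image_of_injective _ hinj, Finset.card_univ,
      Ideal.absNorm_apply, Submodule.cardQuot_apply, Nat.card_eq_fintype_card]
  · intro h hh
    obtain ⟨a, -, rfl⟩ := Finset.mem_image.mp hh
    exact stdIw340_props w hπ a
  · intro h hh h' hh' hne
    obtain ⟨a, -, rfl⟩ := Finset.mem_image.mp hh
    obtain ⟨b, -, rfl⟩ := Finset.mem_image.mp hh'
    exact hni a b (fun e => hne (by rw [e]))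

variable {w}

/-! ## Translates of coset systems, invariance of `iwOp ψ` -/

theorem inIwahoriCoset_mul_left340 {k g : G K} (hk : T5.InIwahori w k)
    (hg : T5.InIwahoriCoset w 1 g) : T5.InIwahoriCoset w 1 (k * g) := by
  obtain ⟨k₁, k₂, t, c, hk₁, hk₂, hc, ht, hgk⟩ := hg
  refine ⟨k * k₁, k₂, t, c, inIwahori_mul340 hk hk₁, hk₂, hc, ht, ?_⟩
  have e1 : finComp w (k * g) = finComp w k * finComp w g := by
    rw [← coe_finCompHom129, map_mul]; rfl
  have e2 : finComp w (k * k₁ * t * k₂) = finComp w k * finComp w (k₁ * t * k₂) := by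
    rw [← coe_finCompHom129, ← coe_finCompHom129, ← coe_finCompHom129,
      ← Matrix.GeneralLinearGroup.coe_mul, ← map_mul]
    congr 2
    group
  rw [e1, e2, hgk]

/-- The left translate of a coset system by a local element of the Iwahori subgroup is a coset
system. -/
theorem isIwCosetSystem_translate340 {H : Finset (G K)} (hH : IsIwCosetSystem w H) {k : G K}
    (hk : IsLocalAtFin w k) (hkI : T5.InIwahori w k) [DecidableEq (G K)] :
    IsIwCosetSystem w (H.image fun h => k * h) := by
  obtain ⟨hcard, hmem, hne⟩ := hH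
  refine ⟨?_, ?_, ?_⟩
  · rw [Finset.card_image_of_injective _ (mul_right_injective k), hcard]
  · intro h hh
    obtain ⟨a, ha, rfl⟩ := Finset.mem_image.mp hh
    exact ⟨isLocalAtFin_mul129 hk (hmem a ha).1, inIwahoriCoset_mul_left340 hkI (hmem a ha).2⟩
  · intro h hh h' hh' hhh
    obtain ⟨a, ha, rfl⟩ := Finset.mem_image.mp hh
    obtain ⟨b, hb, rfl⟩ := Finset.mem_image.mp hh'
    have e : (k * a)⁻¹ * (k * b) = a⁻¹ * b := by group
    rw [e]
    exact hne a ha b hb (fun e' => hhh (by rw [e']))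

/-- An `IsIwInv` function is right invariant under the local elements of the Iwahori subgroup
at each place of the orbit. -/
theorem isIwInv_local340 {l : ℕ} {o : ℕ → HeightOneSpectrum (𝓞 K)} {ψ : G K → ℂ}
    (hψ : IsIwInv l o ψ) {j₀ : ℕ} (hj₀ : j₀ < l) (u : G K) (hu : IsLocalAtFin (o j₀) u)
    (huI : T5.InIwahori (o j₀) u) (g : G K) : ψ (g * u) = ψ g := by
  refine hψ u hu.1 (fun v hv => hu.2 v (hv j₀ hj₀)) (fun j _ => ?_) g
  by_cases hjo : o j = o j₀
  · rw [hjo]; exact huI
  · have : TrivAtFin (o j) u := hu.2 (o j) hjo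
    rw [inIwahori_iff340, (trivAtFin_iff129 _ _).1 this]
    exact isIwG340_one

/-- An element supported at `w` commutes with an element which is trivial at `w`. -/
theorem commute_of_local340 {h k : G K} (hh : IsLocalAtFin w h)
    (hk : finCompHom129 w k = 1) : h * k = k * h := by
  rw [isLocalAtFin_iff129] at hh
  apply G_ext129
  · intro u
    rw [map_mul, map_mul, hh.1 u, one_mul, mul_one]
  · intro v
    by_cases hv : v = w
    · subst hv
      rw [map_mul, map_mul, hk, one_mul, mul_one]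
    · rw [map_mul, map_mul, hh.2 v hv, one_mul, mul_one]

/-- **The operator `𝒰 = iwOp` at `o 0` preserves the Iwahori-invariant functions.** -/
theorem isIwInv_iwOp340 {l : ℕ} {o : ℕ → HeightOneSpectrum (𝓞 K)} {ψ : G K → ℂ}
    {H : Finset (G K)} (hl : 0 < l) (hH : IsIwCosetSystem (o 0) H) (hψ : IsIwInv l o ψ) :
    IsIwInv l o (iwOp (o 0) H ψ) := by
  classical
  intro k hkinf hkout hkI x
  unfold iwOp
  congr 1
  -- split `k = kw * k'`
  set kw : G K := locFin129 (o 0) (finCompHom129 (o 0) k) with hkw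
  set k' : G K := kw⁻¹ * k with hk'
  have hkwloc : IsLocalAtFin (o 0) kw := isLocalAtFin_locFin129 _ _
  have hkwI : T5.InIwahori (o 0) kw := by
    rw [inIwahori_iff340, hkw, finCompHom129_locFin129, ← inIwahori_iff340]
    exact hkI 0 hl
  have hk'w : finCompHom129 (o 0) k' = 1 := by
    rw [hk', map_mul, map_inv, hkw, finCompHom129_locFin129, inv_mul_cancel]
  have hk'v : ∀ v : HeightOneSpectrum (𝓞 K), v ≠ o 0 →
      finCompHom129 v k' = finCompHom129 v k := by
    intro v hv
    rw [hk', map_mul, map_inv, hkw, finCompHom129_locFin129_of_ne _ _ hv, inv_one, one_mul]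
  have hk'inf : ∀ u : InfinitePlace K, TrivAtInf u k' := by
    intro u
    rw [trivAtInf_iff129, hk', map_mul, map_inv, hkw, infCompHom129_locFin129, inv_one,
      one_mul, ← trivAtInf_iff129]
    exact hkinf u
  have hk'out : ∀ v : HeightOneSpectrum (𝓞 K), (∀ j < l, v ≠ o j) → TrivAtFin v k' := by
    intro v hv
    rw [trivAtFin_iff129, hk'v v (hv 0 hl), ← trivAtFin_iff129]
    exact hkout v hv
  have hk'I : ∀ j < l, T5.InIwahori (o j) k' := by
    intro j hj
    by_cases hjo : o j = o 0
    · rw [hjo, inIwahori_iff340, hk'w]; exact isIwG340_one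
    · rw [inIwahori_iff340, hk'v _ hjo, ← inIwahori_iff340]
      exact hkI j hj
  have hkk : k = kw * k' := by rw [hk']; group
  have hterm : ∀ h ∈ H, ψ (x * k * h) = ψ (x * (kw * h)) := by
    intro h hh
    have hcomm : k' * h = h * k' := (commute_of_local340 (hH.2.1 h hh).1 hk'w).symm
    have e : x * k * h = x * (kw * h) * k' := by
      rw [hkk, mul_assoc, mul_assoc kw, hcomm]
      group
    rw [e]
    exact hψ k' hk'inf hk'out hk'I _
  rw [Finset.sum_congr rfl hterm]
  have himg : ∑ h ∈ H, ψ (x * (kw * h)) = ∑ h ∈ H.image (fun h => kw * h), ψ (x * h) := by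
    rw [Finset.sum_image (fun a _ b _ hab => mul_right_injective kw hab)]
  rw [himg]
  exact iwSum_indep340 (isIwCosetSystem_translate340 hH hkwloc hkwI) hH ψ
    (fun u hu huI g => isIwInv_local340 hψ hl u hu huI g) x

/-- A scalar uniformiser at `w` commutes with the elements supported at `w`. -/
theorem commute_scalar340 {z h : G K} (hz : IsScalarUniformizerAt w z)
    (hh : IsLocalAtFin w h) : z * h = h * z := by
  obtain ⟨hzloc, c, -, hzc⟩ := hz
  rw [isLocalAtFin_iff129] at hh hzloc
  apply G_ext129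
  · intro u
    rw [map_mul, map_mul, hh.1 u, hzloc.1 u]
  · intro v
    by_cases hv : v = w
    · subst hv
      apply Units.ext
      rw [map_mul, map_mul, Matrix.GeneralLinearGroup.coe_mul,
        Matrix.GeneralLinearGroup.coe_mul, coe_finCompHom129, coe_finCompHom129, hzc]
      ext i j
      rw [Matrix.diagonal_mul, Matrix.mul_diagonal, mul_comm]
    · rw [map_mul, map_mul, hh.2 v hv, hzloc.2 v hv]

/-- `Z^k` commutes with `𝒰`. -/
theorem shiftOp_iwOp_comm340 {z : G K} (hz : IsScalarUniformizerAt w z) {H : Finset (G K)}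
    (hH : IsIwCosetSystem w H) (k : ℤ) (ψ : G K → ℂ) :
    shiftOp z k (iwOp w H ψ) = iwOp w H (shiftOp z k ψ) := by
  funext x
  unfold shiftOp iwOp
  congr 1
  refine Finset.sum_congr rfl fun h hh => ?_
  have hc : Commute z h := commute_scalar340 hz (hH.2.1 h hh).1
  have hck : z ^ k * h = h * z ^ k := (hc.zpow_left k).eq
  rw [mul_assoc, hck, ← mul_assoc]

end Fermat.Agent.LT.T7.H340

end
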