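import Fermat.Agent.LT.H129.HeckeExists

/-!
# Row LT, tower T7, helper340: the Iwahori subgroup of `GL₂` of a discretely valued field and
# the double coset `I diag(ϖ, 1) I` (local algebra for the operator `𝒰` of `T7/Level2.lean`)

OFF-MAIN.  Imports only helper129's local kit (byte-identical copies).  General field `F` with a
valuation `v : Valuation F ℤᵐ⁰`.

* `IsIwG340 v M` : `M` and `M⁻¹` integral, lower left entry of valuation `< 1`; a group
  (`isIwG340_one/_mul/_inv`); units on the diagonal (`IsIwG340.val_00/_11`), `v (det M) = 1`.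
* `IsIwT340 v M` : the SHAPE of the elements of `I diag(ϖ, 1) I`: integral, `v (det M) = exp (-1)`,
  `v (M 0 0) < 1`, `v (M 1 0) < 1`, `v (M 1 1) = 1`;  `isIwT340_of_mul` : `A T B` has this shape.
* `isIwG340_inv_mul` : two elements of that shape with `v (M 0 1 * M' 1 1 - M' 0 1 * M 1 1) < 1`
  (same residue of `M 0 1 / M 1 1`) differ by an element of the Iwahori subgroup on the right.
-/

set_option autoImplicit false

noncomputable section

namespace Fermat.Agent.LT.T7.H340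

open Fermat.Agent.LT.H129

variable {F : Type*} [Field F] (v : Valuation F (WithZero (Multiplicative ℤ)))

/-- The Iwahori subgroup: `M`, `M⁻¹` integral, lower left entry in the maximal ideal. -/
def IsIwG340 (M : GL (Fin 2) F) : Prop :=
  (∀ i j, v ((M : Matrix (Fin 2) (Fin 2) F) i j) ≤ 1) ∧
    (∀ i j, v (((M⁻¹ : GL (Fin 2) F) : Matrix (Fin 2) (Fin 2) F) i j) ≤ 1) ∧
    v ((M : Matrix (Fin 2) (Fin 2) F) 1 0) < 1

/-- The shape of the elements of `I diag(ϖ, 1) I`. -/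
def IsIwT340 (M : GL (Fin 2) F) : Prop :=
  (∀ i j, v ((M : Matrix (Fin 2) (Fin 2) F) i j) ≤ 1) ∧
    v (M : Matrix (Fin 2) (Fin 2) F).det = WithZero.exp (-1 : ℤ) ∧
    v ((M : Matrix (Fin 2) (Fin 2) F) 0 0) < 1 ∧
    v ((M : Matrix (Fin 2) (Fin 2) F) 1 0) < 1 ∧
    v ((M : Matrix (Fin 2) (Fin 2) F) 1 1) = 1

variable {v}

theorem val_det_le340 {M : GL (Fin 2) F}
    (h : ∀ i j, v ((M : Matrix (Fin 2) (Fin 2) F) i j) ≤ 1) :
    v (M : Matrix (Fin 2) (Fin 2) F).det ≤ 1 := by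
  rw [Matrix.det_fin_two]
  refine le_trans (Valuation.map_sub _ _ _) (max_le ?_ ?_)
  · rw [map_mul]; exact mul_le_one' (h 0 0) (h 1 1)
  · rw [map_mul]; exact mul_le_one' (h 0 1) (h 1 0)

theorem val_det_eq_one340 {M : GL (Fin 2) F}
    (h : ∀ i j, v ((M : Matrix (Fin 2) (Fin 2) F) i j) ≤ 1)
    (h' : ∀ i j, v (((M⁻¹ : GL (Fin 2) F) : Matrix (Fin 2) (Fin 2) F) i j) ≤ 1) :
    v (M : Matrix (Fin 2) (Fin 2) F).det = 1 := by
  have h1 := val_det_le340 h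
  have h2 := val_det_le340 h'
  have hmul : (M : Matrix (Fin 2) (Fin 2) F).det
      * ((M⁻¹ : GL (Fin 2) F) : Matrix (Fin 2) (Fin 2) F).det = 1 := by
    rw [← Matrix.det_mul, ← Matrix.GeneralLinearGroup.coe_mul, mul_inv_cancel]
    simp
  have hv : v (M : Matrix (Fin 2) (Fin 2) F).det
      * v ((M⁻¹ : GL (Fin 2) F) : Matrix (Fin 2) (Fin 2) F).det = 1 := by
    rw [← map_mul, hmul, map_one]
  refine le_antisymm h1 ?_
  calc (1 : WithZero (Multiplicative ℤ))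
      = v (M : Matrix (Fin 2) (Fin 2) F).det
        * v ((M⁻¹ : GL (Fin 2) F) : Matrix (Fin 2) (Fin 2) F).det := hv.symm
    _ ≤ v (M : Matrix (Fin 2) (Fin 2) F).det * 1 := mul_le_mul' le_rfl h2
    _ = v (M : Matrix (Fin 2) (Fin 2) F).det := mul_one _

theorem IsIwG340.val_det {M : GL (Fin 2) F} (h : IsIwG340 v M) :
    v (M : Matrix (Fin 2) (Fin 2) F).det = 1 :=
  val_det_eq_one340 h.1 h.2.1

/-- The product of the diagonal entries of an element of the Iwahori subgroup is a unit. -/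
theorem IsIwG340.val_diag {M : GL (Fin 2) F} (h : IsIwG340 v M) :
    v ((M : Matrix (Fin 2) (Fin 2) F) 0 0 * (M : Matrix (Fin 2) (Fin 2) F) 1 1) = 1 := by
  have hd := h.val_det
  rw [Matrix.det_fin_two] at hd
  have hlt : v ((M : Matrix (Fin 2) (Fin 2) F) 0 1 * (M : Matrix (Fin 2) (Fin 2) F) 1 0) < 1 := by
    rw [map_mul]
    calc v ((M : Matrix (Fin 2) (Fin 2) F) 0 1) * v ((M : Matrix (Fin 2) (Fin 2) F) 1 0)
        ≤ 1 * v ((M : Matrix (Fin 2) (Fin 2) F) 1 0) := mul_le_mul' (h.1 0 1) le_rfl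
      _ = v ((M : Matrix (Fin 2) (Fin 2) F) 1 0) := one_mul _
      _ < 1 := h.2.2
  by_contra hne
  have hle : v ((M : Matrix (Fin 2) (Fin 2) F) 0 0 * (M : Matrix (Fin 2) (Fin 2) F) 1 1) ≤ 1 := by
    rw [map_mul]; exact mul_le_one' (h.1 0 0) (h.1 1 1)
  have hlt2 := lt_of_le_of_ne hle hne
  have : v ((M : Matrix (Fin 2) (Fin 2) F) 0 0 * (M : Matrix (Fin 2) (Fin 2) F) 1 1
      - (M : Matrix (Fin 2) (Fin 2) F) 0 1 * (M : Matrix (Fin 2) (Fin 2) F) 1 0) < 1 :=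
    lt_of_le_of_lt (Valuation.map_sub _ _ _) (max_lt hlt2 hlt)
  rw [hd] at this
  exact lt_irrefl _ this

theorem IsIwG340.val_00 {M : GL (Fin 2) F} (h : IsIwG340 v M) :
    v ((M : Matrix (Fin 2) (Fin 2) F) 0 0) = 1 := by
  have hd := h.val_diag
  rw [map_mul] at hd
  refine le_antisymm (h.1 0 0) ?_
  calc (1 : WithZero (Multiplicative ℤ))
      = v ((M : Matrix (Fin 2) (Fin 2) F) 0 0) * v ((M : Matrix (Fin 2) (Fin 2) F) 1 1) := hd.symm
    _ ≤ v ((M : Matrix (Fin 2) (Fin 2) F) 0 0) * 1 := mul_le_mul' le_rfl (h.1 1 1)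
    _ = _ := mul_one _

theorem IsIwG340.val_11 {M : GL (Fin 2) F} (h : IsIwG340 v M) :
    v ((M : Matrix (Fin 2) (Fin 2) F) 1 1) = 1 := by
  have hd := h.val_diag
  rw [map_mul] at hd
  refine le_antisymm (h.1 1 1) ?_
  calc (1 : WithZero (Multiplicative ℤ))
      = v ((M : Matrix (Fin 2) (Fin 2) F) 0 0) * v ((M : Matrix (Fin 2) (Fin 2) F) 1 1) := hd.symm
    _ ≤ 1 * v ((M : Matrix (Fin 2) (Fin 2) F) 1 1) := mul_le_mul' (h.1 0 0) le_rfl
    _ = _ := one_mul _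

theorem isIwG340_one : IsIwG340 v (1 : GL (Fin 2) F) := by
  have h1 : ∀ i j : Fin 2, v ((1 : Matrix (Fin 2) (Fin 2) F) i j) ≤ 1 := by
    intro i j
    fin_cases i <;> fin_cases j <;> simp
  refine ⟨by simpa using h1, by simpa using h1, by simp⟩

theorem val_mul_entry_le340 {A B : GL (Fin 2) F}
    (hA : ∀ i j, v ((A : Matrix (Fin 2) (Fin 2) F) i j) ≤ 1)
    (hB : ∀ i j, v ((B : Matrix (Fin 2) (Fin 2) F) i j) ≤ 1) (i j : Fin 2) :
    v (((A * B : GL (Fin 2) F) : Matrix (Fin 2) (Fin 2) F) i j) ≤ 1 := by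
  rw [Matrix.GeneralLinearGroup.coe_mul, Matrix.mul_apply, Fin.sum_univ_two]
  refine le_trans (Valuation.map_add _ _ _) (max_le ?_ ?_)
  · rw [map_mul]; exact mul_le_one' (hA i 0) (hB 0 j)
  · rw [map_mul]; exact mul_le_one' (hA i 1) (hB 1 j)

theorem isIwG340_mul {A B : GL (Fin 2) F} (hA : IsIwG340 v A) (hB : IsIwG340 v B) :
    IsIwG340 v (A * B) := by
  refine ⟨val_mul_entry_le340 hA.1 hB.1, ?_, ?_⟩
  · rw [_root_.mul_inv_rev]
    exact val_mul_entry_le340 hB.2.1 hA.2.1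
  · rw [Matrix.GeneralLinearGroup.coe_mul, Matrix.mul_apply, Fin.sum_univ_two]
    refine lt_of_le_of_lt (Valuation.map_add _ _ _) (max_lt ?_ ?_)
    · rw [map_mul]
      calc v ((A : Matrix (Fin 2) (Fin 2) F) 1 0) * v ((B : Matrix (Fin 2) (Fin 2) F) 0 0)
          ≤ v ((A : Matrix (Fin 2) (Fin 2) F) 1 0) * 1 := mul_le_mul' le_rfl (hB.1 0 0)
        _ = v ((A : Matrix (Fin 2) (Fin 2) F) 1 0) := mul_one _
        _ < 1 := hA.2.2
    · rw [map_mul]
      calc v ((A : Matrix (Fin 2) (Fin 2) F) 1 1) * v ((B : Matrix (Fin 2) (Fin 2) F) 1 0)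
          ≤ 1 * v ((B : Matrix (Fin 2) (Fin 2) F) 1 0) := mul_le_mul' (hA.1 1 1) le_rfl
        _ = v ((B : Matrix (Fin 2) (Fin 2) F) 1 0) := one_mul _
        _ < 1 := hB.2.2

theorem inv_apply_10_340 (M : GL (Fin 2) F) :
    ((M⁻¹ : GL (Fin 2) F) : Matrix (Fin 2) (Fin 2) F) 1 0
      = -(M : Matrix (Fin 2) (Fin 2) F) 1 0 / (M : Matrix (Fin 2) (Fin 2) F).det := by
  rw [Matrix.coe_units_inv, Matrix.inv_def, Matrix.smul_apply, smul_eq_mul,
    Ring.inverse_eq_inv', Matrix.adjugate_fin_two]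
  simp only [Matrix.of_apply, Matrix.cons_val', Matrix.cons_val_zero, Matrix.cons_val_one,
    Matrix.cons_val_fin_one]
  rw [div_eq_inv_mul]

theorem isIwG340_inv {A : GL (Fin 2) F} (hA : IsIwG340 v A) : IsIwG340 v A⁻¹ := by
  refine ⟨hA.2.1, by rw [inv_inv]; exact hA.1, ?_⟩
  rw [inv_apply_10_340, map_div₀, hA.val_det, div_one, Valuation.map_neg]
  exact hA.2.2

/-! ## The shape of `I diag(ϖ, 1) I` -/

theorem mul_diag_mul_apply340 (A T B : GL (Fin 2) F) {c : F}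
    (hT : (T : Matrix (Fin 2) (Fin 2) F) = !![c, 0; 0, 1]) (i j : Fin 2) :
    ((A * T * B : GL (Fin 2) F) : Matrix (Fin 2) (Fin 2) F) i j
      = (A : Matrix (Fin 2) (Fin 2) F) i 0 * c * (B : Matrix (Fin 2) (Fin 2) F) 0 j
        + (A : Matrix (Fin 2) (Fin 2) F) i 1 * (B : Matrix (Fin 2) (Fin 2) F) 1 j := by
  rw [Matrix.GeneralLinearGroup.coe_mul, Matrix.GeneralLinearGroup.coe_mul, hT,
    Matrix.mul_apply, Fin.sum_univ_two, Matrix.mul_apply, Matrix.mul_apply, Fin.sum_univ_two,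
    Fin.sum_univ_two]
  simp

theorem exp_neg_one_lt_one340 : (WithZero.exp (-1 : ℤ) : WithZero (Multiplicative ℤ)) < 1 := by
  rw [← WithZero.exp_zero, WithZero.exp_lt_exp]
  norm_num

theorem isIwT340_of_mul {A T B : GL (Fin 2) F} {c : F} (hA : IsIwG340 v A)
    (hB : IsIwG340 v B) (hc : v c = WithZero.exp (-1 : ℤ))
    (hT : (T : Matrix (Fin 2) (Fin 2) F) = !![c, 0; 0, 1]) : IsIwT340 v (A * T * B) := by
  have hc1 : v c < 1 := by rw [hc]; exact exp_neg_one_lt_one340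
  have hcle : v c ≤ 1 := hc1.le
  -- a product containing `c` has valuation `< 1`
  have hterm : ∀ a b : F, v a ≤ 1 → v b ≤ 1 → v (a * c * b) < 1 := by
    intro a b ha hb
    rw [map_mul, map_mul]
    calc v a * v c * v b ≤ 1 * v c * 1 := mul_le_mul' (mul_le_mul' ha le_rfl) hb
      _ = v c := by rw [one_mul, mul_one]
      _ < 1 := hc1
  refine ⟨?_, ?_, ?_, ?_, ?_⟩
  · intro i j
    rw [mul_diag_mul_apply340 A T B hT]
    refine le_trans (Valuation.map_add _ _ _) (max_le (hterm _ _ (hA.1 i 0) (hB.1 0 j)).le ?_)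
    rw [map_mul]
    exact mul_le_one' (hA.1 i 1) (hB.1 1 j)
  · rw [Matrix.GeneralLinearGroup.coe_mul, Matrix.GeneralLinearGroup.coe_mul, Matrix.det_mul,
      Matrix.det_mul, map_mul, map_mul, hA.val_det, hB.val_det, hT, Matrix.det_fin_two_of]
    simp [hc]
  · rw [mul_diag_mul_apply340 A T B hT]
    refine lt_of_le_of_lt (Valuation.map_add _ _ _) (max_lt (hterm _ _ (hA.1 0 0) (hB.1 0 0)) ?_)
    rw [map_mul]
    calc v ((A : Matrix (Fin 2) (Fin 2) F) 0 1) * v ((B : Matrix (Fin 2) (Fin 2) F) 1 0)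
        ≤ 1 * v ((B : Matrix (Fin 2) (Fin 2) F) 1 0) := mul_le_mul' (hA.1 0 1) le_rfl
      _ = v ((B : Matrix (Fin 2) (Fin 2) F) 1 0) := one_mul _
      _ < 1 := hB.2.2
  · rw [mul_diag_mul_apply340 A T B hT]
    refine lt_of_le_of_lt (Valuation.map_add _ _ _) (max_lt (hterm _ _ (hA.1 1 0) (hB.1 0 0)) ?_)
    rw [map_mul]
    calc v ((A : Matrix (Fin 2) (Fin 2) F) 1 1) * v ((B : Matrix (Fin 2) (Fin 2) F) 1 0)
        ≤ 1 * v ((B : Matrix (Fin 2) (Fin 2) F) 1 0) := mul_le_mul' (hA.1 1 1) le_rfl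
      _ = v ((B : Matrix (Fin 2) (Fin 2) F) 1 0) := one_mul _
      _ < 1 := hB.2.2
  · rw [mul_diag_mul_apply340 A T B hT]
    have h2 : v ((A : Matrix (Fin 2) (Fin 2) F) 1 1 * (B : Matrix (Fin 2) (Fin 2) F) 1 1) = 1 := by
      rw [map_mul, hA.val_11, hB.val_11, one_mul]
    have h1 := hterm _ _ (hA.1 1 0) (hB.1 0 1)
    rw [Valuation.map_add_eq_of_lt_right _ (by rw [h2]; exact h1), h2]

/-! ## Two elements of the same shape with the same residue are equivalent -/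

theorem le_exp_neg_one_of_lt_one340 {y : WithZero (Multiplicative ℤ)} (hy : y < 1) :
    y ≤ WithZero.exp (-1 : ℤ) := by
  rw [← WithZero.lt_mul_exp_iff_le (by simp), ← WithZero.exp_add]
  simpa using hy

theorem val_div_det_le340 {x d : F} (hd : v d = WithZero.exp (-1 : ℤ)) (hx : v x < 1) :
    v (x / d) ≤ 1 := by
  rw [map_div₀, hd, div_le_one₀ (by simp)]
  exact le_exp_neg_one_of_lt_one340 hx

theorem val_mul_lt340 {a b : F} (ha : v a < 1) (hb : v b ≤ 1) : v (a * b) < 1 := by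
  rw [map_mul]
  calc v a * v b ≤ v a * 1 := mul_le_mul' le_rfl hb
    _ = v a := mul_one _
    _ < 1 := ha

theorem val_mul_lt340' {a b : F} (ha : v a ≤ 1) (hb : v b < 1) : v (a * b) < 1 := by
  rw [mul_comm]; exact val_mul_lt340 hb ha

theorem adj_mul_apply340 (M M' : GL (Fin 2) F) :
    (Matrix.adjugate (M : Matrix (Fin 2) (Fin 2) F) * (M' : Matrix (Fin 2) (Fin 2) F))
      = !![(M : Matrix (Fin 2) (Fin 2) F) 1 1 * (M' : Matrix (Fin 2) (Fin 2) F) 0 0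
            - (M : Matrix (Fin 2) (Fin 2) F) 0 1 * (M' : Matrix (Fin 2) (Fin 2) F) 1 0,
          (M : Matrix (Fin 2) (Fin 2) F) 1 1 * (M' : Matrix (Fin 2) (Fin 2) F) 0 1
            - (M : Matrix (Fin 2) (Fin 2) F) 0 1 * (M' : Matrix (Fin 2) (Fin 2) F) 1 1;
          (M : Matrix (Fin 2) (Fin 2) F) 0 0 * (M' : Matrix (Fin 2) (Fin 2) F) 1 0
            - (M : Matrix (Fin 2) (Fin 2) F) 1 0 * (M' : Matrix (Fin 2) (Fin 2) F) 0 0,
          (M : Matrix (Fin 2) (Fin 2) F) 0 0 * (M' : Matrix (Fin 2) (Fin 2) F) 1 1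
            - (M : Matrix (Fin 2) (Fin 2) F) 1 0 * (M' : Matrix (Fin 2) (Fin 2) F) 0 1] := by
  rw [Matrix.adjugate_fin_two]
  ext i j
  fin_cases i <;> fin_cases j <;>
    simp [Matrix.mul_apply, Fin.sum_univ_two] <;> ring

/-- Integrality of `M⁻¹ M'` and the lower left entry. -/
theorem inv_mul_entries340 {M M' : GL (Fin 2) F} (hM : IsIwT340 v M) (hM' : IsIwT340 v M')
    (hρ : v ((M : Matrix (Fin 2) (Fin 2) F) 0 1 * (M' : Matrix (Fin 2) (Fin 2) F) 1 1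
      - (M' : Matrix (Fin 2) (Fin 2) F) 0 1 * (M : Matrix (Fin 2) (Fin 2) F) 1 1) < 1) :
    (∀ i j, v (((M⁻¹ * M' : GL (Fin 2) F) : Matrix (Fin 2) (Fin 2) F) i j) ≤ 1) ∧
      v (((M⁻¹ * M' : GL (Fin 2) F) : Matrix (Fin 2) (Fin 2) F) 1 0) < 1 := by
  obtain ⟨hint, hdet, h00, h10, h11⟩ := hM
  obtain ⟨hint', hdet', h00', h10', h11'⟩ := hM'
  have e00 : v ((M : Matrix (Fin 2) (Fin 2) F) 1 1 * (M' : Matrix (Fin 2) (Fin 2) F) 0 0
      - (M : Matrix (Fin 2) (Fin 2) F) 0 1 * (M' : Matrix (Fin 2) (Fin 2) F) 1 0) < 1 :=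
    lt_of_le_of_lt (Valuation.map_sub _ _ _)
      (max_lt (val_mul_lt340' (hint 1 1) h00') (val_mul_lt340' (hint 0 1) h10'))
  have e01 : v ((M : Matrix (Fin 2) (Fin 2) F) 1 1 * (M' : Matrix (Fin 2) (Fin 2) F) 0 1
      - (M : Matrix (Fin 2) (Fin 2) F) 0 1 * (M' : Matrix (Fin 2) (Fin 2) F) 1 1) < 1 := by
    have : (M : Matrix (Fin 2) (Fin 2) F) 1 1 * (M' : Matrix (Fin 2) (Fin 2) F) 0 1
        - (M : Matrix (Fin 2) (Fin 2) F) 0 1 * (M' : Matrix (Fin 2) (Fin 2) F) 1 1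
        = -((M : Matrix (Fin 2) (Fin 2) F) 0 1 * (M' : Matrix (Fin 2) (Fin 2) F) 1 1
          - (M' : Matrix (Fin 2) (Fin 2) F) 0 1 * (M : Matrix (Fin 2) (Fin 2) F) 1 1) := by ring
    rw [this, Valuation.map_neg]
    exact hρ
  have e11 : v ((M : Matrix (Fin 2) (Fin 2) F) 0 0 * (M' : Matrix (Fin 2) (Fin 2) F) 1 1
      - (M : Matrix (Fin 2) (Fin 2) F) 1 0 * (M' : Matrix (Fin 2) (Fin 2) F) 0 1) < 1 :=
    lt_of_le_of_lt (Valuation.map_sub _ _ _)
      (max_lt (val_mul_lt340 h00 (hint' 1 1)) (val_mul_lt340 h10 (hint' 0 1)))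
  have hsq : ∀ a b : F, v a < 1 → v b < 1 → v (a * b) ≤ WithZero.exp (-2 : ℤ) := by
    intro a b ha hb
    rw [map_mul]
    calc v a * v b ≤ WithZero.exp (-1 : ℤ) * WithZero.exp (-1 : ℤ) :=
          mul_le_mul' (le_exp_neg_one_of_lt_one340 ha) (le_exp_neg_one_of_lt_one340 hb)
      _ = WithZero.exp (-2 : ℤ) := by rw [← WithZero.exp_add]; norm_num
  have e10 : v ((M : Matrix (Fin 2) (Fin 2) F) 0 0 * (M' : Matrix (Fin 2) (Fin 2) F) 1 0
      - (M : Matrix (Fin 2) (Fin 2) F) 1 0 * (M' : Matrix (Fin 2) (Fin 2) F) 0 0)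
      ≤ WithZero.exp (-2 : ℤ) :=
    le_trans (Valuation.map_sub _ _ _) (max_le (hsq _ _ h00 h10') (hsq _ _ h10 h00'))
  have hentry : ∀ i j, ((M⁻¹ * M' : GL (Fin 2) F) : Matrix (Fin 2) (Fin 2) F) i j
      = (Matrix.adjugate (M : Matrix (Fin 2) (Fin 2) F) * (M' : Matrix (Fin 2) (Fin 2) F)) i j
        / (M : Matrix (Fin 2) (Fin 2) F).det := fun i j => inv_mul_apply129 M M' i j
  constructor
  · intro i j
    rw [hentry, adj_mul_apply340]
    fin_cases i <;> fin_cases j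
    · exact val_div_det_le340 hdet e00
    · exact val_div_det_le340 hdet e01
    · refine val_div_det_le340 hdet (lt_of_le_of_lt e10 ?_)
      rw [← WithZero.exp_zero, WithZero.exp_lt_exp]; norm_num
    · exact val_div_det_le340 hdet e11
  · rw [hentry, adj_mul_apply340]
    show v (_ / _) < 1
    rw [map_div₀, hdet, div_lt_one₀ (by simp)]
    refine lt_of_le_of_lt e10 ?_
    rw [WithZero.exp_lt_exp]; norm_num

/-- **Same residue ⇒ equivalent modulo the Iwahori subgroup on the right.** -/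
theorem isIwG340_inv_mul {M M' : GL (Fin 2) F} (hM : IsIwT340 v M) (hM' : IsIwT340 v M')
    (hρ : v ((M : Matrix (Fin 2) (Fin 2) F) 0 1 * (M' : Matrix (Fin 2) (Fin 2) F) 1 1
      - (M' : Matrix (Fin 2) (Fin 2) F) 0 1 * (M : Matrix (Fin 2) (Fin 2) F) 1 1) < 1) :
    IsIwG340 v (M⁻¹ * M') := by
  have hρ' : v ((M' : Matrix (Fin 2) (Fin 2) F) 0 1 * (M : Matrix (Fin 2) (Fin 2) F) 1 1
      - (M : Matrix (Fin 2) (Fin 2) F) 0 1 * (M' : Matrix (Fin 2) (Fin 2) F) 1 1) < 1 := by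
    rw [← Valuation.map_neg, neg_sub]
    exact hρ
  have h1 := inv_mul_entries340 hM hM' hρ
  have h2 := inv_mul_entries340 hM' hM hρ'
  refine ⟨h1.1, ?_, h1.2⟩
  have e : (M⁻¹ * M')⁻¹ = M'⁻¹ * M := by group
  rw [e]
  exact h2.1

end Fermat.Agent.LT.T7.H340

end
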