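import Mathlib
import Fermat.Agent.LT.T7.H340.UpFactSpec

/-!
# Row LT, tower T7, node C2.7.13.1 `UpFactC340` (owner helper340, registry row 2620):
# THE SECOND CUT -- proved top

OFF-MAIN.  No hole, nothing assumed.

    upFactC_of_parts340 : UpDatC340 K K' → CutOnUpC340 K K' → FactIntUpC340 K K'
                            → UpFactC340 K K'
-/

set_option autoImplicit false

open AutomorphicForm IsDedekindDomain NumberField MeasureTheory
open scoped ComplexConjugate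

noncomputable section

namespace Fermat.Agent.LT.T7.H340

open Fermat.Agent.LT.H556 Fermat.Agent.LT.H556.A0 Fermat.Agent.LT.T7 Fermat.Agent.LT.T7.H305

attribute [local instance] Fermat.Agent.LT.T5.instMeasurableSpaceG

variable {K K' : Type} [Field K] [NumberField K] [Field K'] [NumberField K'] [Algebra K K']

/-- The value of `upJ340` at a place of `Sin`. -/
theorem upJ_inert340 (l : ℕ) (hl : 0 < l)
    (φ₀ : ∀ w : HeightOneSpectrum (𝓞 K'), GL (Fin 2) (w.adicCompletion K') → ℂ)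
    {γ : GL (Fin 2) K} (L : LocData305 K γ) {δ : GL (Fin 2) K'} (U : UpDat340 K δ)
    (v : HeightOneSpectrum (𝓞 K)) (h : v ∈ U.Sin) :
    upJ340 l hl φ₀ L U v
      = locTwInt340 (U.dI ⟨v, h⟩).sw (U.dI ⟨v, h⟩).μ' (U.dI ⟨v, h⟩).β' (φ₀ (U.dI ⟨v, h⟩).w)
          (locG305 (U.dI ⟨v, h⟩).w δ) := by
  unfold upJ340
  exact dif_pos h

/-- The value of `upJ340` at a place of `Ssp`. -/
theorem upJ_split340 (l : ℕ) (hl : 0 < l)
    (φ₀ : ∀ w : HeightOneSpectrum (𝓞 K'), GL (Fin 2) (w.adicCompletion K') → ℂ)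
    {γ : GL (Fin 2) K} (L : LocData305 K γ) {δ : GL (Fin 2) K'} (U : UpDat340 K δ)
    (v : HeightOneSpectrum (𝓞 K)) (h : v ∉ U.Sin) (h' : v ∈ U.Ssp) :
    upJ340 l hl φ₀ L U v
      = splitInt340 l hl (L.μv v) (L.βv v) (phiS340 φ₀ (U.dS ⟨v, h'⟩))
          (delS340 δ (U.dS ⟨v, h'⟩)) := by
  unfold upJ340
  rw [dif_neg h, dif_pos h']

/-- **THE TOP OF THE NODE C2.7.13.1**: `UpFactC340` from the three parts. -/
theorem upFactC_of_parts340 (hDat : UpDatC340 K K') (hA : CutOnUpC340 K K')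
    (hB : FactIntUpC340 K K') : UpFactC340 K K' := by
  intro hT6 D hD hcyc hl hcplx ι hι μc hμc T₀ hT₀ n m hlev
  obtain ⟨cG', hcG', hfact⟩ := hB hT6 D hD hcyc hl hcplx ι hι μc hμc T₀ hT₀ n m hlev
  refine ⟨cG', hcG', ?_⟩
  intro S S' hTS hSS' φ₀ Φ f₀ F hloc δ γ hγ hN hgood hint μT μT' hμT hμT' hlink L cT hL hcT hTor
  obtain ⟨U, hU⟩ := hDat hT6 D hD hcyc hl hcplx ι hι T₀ hT₀ n m hlev S S' hTS hSS' δ γ hγ hN L hL
  refine ⟨upCut340 S' cT L U, upJ340 D.l hU.pos φ₀ L U, upJc340 D.l hU.pos D.R'.r Φ L μc U,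
    ?_, ?_, ?_, ?_⟩
  · exact hA hT6 D hD hcyc hl hcplx ι hι T₀ hT₀ n m hlev S S' hTS hSS' φ₀ Φ δ γ hγ hN hgood hint
      μT μT' hμT hμT' hlink L cT hL hcT hTor U hU
  · exact hfact S S' hTS hSS' φ₀ Φ f₀ F hloc δ γ hγ hN hgood hint L cT hL hcT U hU
  · intro v hv
    rcases (hU.union v).1 hv with h | h
    · left
      have hd := hU.inert ⟨v, h⟩
      exact ⟨(U.dI ⟨v, h⟩).w, (U.dI ⟨v, h⟩).e, (U.dI ⟨v, h⟩).i, (U.dI ⟨v, h⟩).sw,
        (U.dI ⟨v, h⟩).μ', (U.dI ⟨v, h⟩).μt', (U.dI ⟨v, h⟩).β', hd.ovr, hd.uniq, hd.rat_i,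
        hd.rat_s, hd.ext, hd.haar, hd.tor, hd.cut, upJ_inert340 D.l hU.pos φ₀ L U v h⟩
    · right
      have hnot : v ∉ U.Sin := fun h1 => hU.disj v h1 h
      have hd := hU.split ⟨v, h⟩
      exact ⟨hU.pos, (U.dS ⟨v, h⟩).w, (U.dS ⟨v, h⟩).i, hd.ovr, hd.rel, hd.ne, hd.rat_i,
        hd.val_i, upJ_split340 D.l hU.pos φ₀ L U v hnot h⟩
  · intro w j
    have hd := hU.arch w
    exact ⟨hU.pos, (U.dA w).w, (U.dA w).d, hd.ovr, hd.rel, hd.inj, hd.typ, hd.iot, rfl⟩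

end Fermat.Agent.LT.T7.H340

end
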