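import Mathlib
import Fermat.Agent.LT.T7.H340.UpFactTop

/-!
# Row LT, tower T7, node C2.7.13.1 `UpFactC340`, PART B (owner helper340, registry row 2744):
# the proved top of the integral part

OFF-MAIN.  No hole, nothing assumed.  Mirror of `T7/H20/FactIntDown.lean` (helper20) with the
places GROUPED over `K`.

    factIntUpC_of340 : GrpSplitC340 K K' → PtFactUpC340 K K' → RayFinUpC340 K K' →
        ArchIntblUpC340 K K' → ArchIntblC558 → CompContC558 K' → BiInvContC558 K' →
        HaarSigmaC558 K → HaarSigmaC558 K' → IsoContC340 → SecCountC340 K → FactIntUpC340 K K'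
-/

set_option autoImplicit false
set_option linter.style.haveILetI false

open AutomorphicForm IsDedekindDomain NumberField MeasureTheory
open scoped ComplexConjugate

noncomputable section

namespace Fermat.Agent.LT.T7.H340

open Fermat.Agent.LT.H556 Fermat.Agent.LT.H556.A0 Fermat.Agent.LT.T7 Fermat.Agent.LT.T7.H305
open Fermat.Agent.LT.T7.H558

attribute [local instance] Fermat.Agent.LT.T5.instMeasurableSpaceG

/-- **ASSET (closed by helper159 `secondCountable_GLv159`, `secondCountable_GLC159`).**  The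
local groups downstairs are second countable. -/
def SecCountC340 (K : Type) [Field K] [NumberField K] : Prop :=
  (∀ v : HeightOneSpectrum (𝓞 K), SecondCountableTopology (GL (Fin 2) (v.adicCompletion K))) ∧
    SecondCountableTopology (GL (Fin 2) ℂ)

/-- **PART B, CORE FORM** (the same Prop as `H546.FactIntUpCoreC546` of helper546): the
integral part with the clauses of the local hypotheses which the proof uses (`inv_up` on `S`,
`arch_up`) and the agreement of the levels along the split data; no matching, nothing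
downstairs.  It serves `LocHyp305` and `LocHyp893`. -/
def FactIntUpCoreC340 (K K' : Type) [Field K] [NumberField K] [Field K'] [NumberField K']
    [Algebra K K'] : Prop :=
  T6.T6Out →
  ∀ D : CompData K K', IsCompData D → IsCycExt K K' D.l → D.l ≠ 2 → TotCplx K →
    ∀ ι : Adl K →+* Adl K', IsAdeleBase305 D.s D.l ι →
    ∀ μc : @Measure (GL (Fin 2) ℂ) (borel _), @Measure.IsHaarMeasure _ _ _ (borel _) μc →
    ∀ (T₀ : Finset (HeightOneSpectrum (𝓞 K))), UnramOut305 (K' := K') T₀ →
    ∀ (n : HeightOneSpectrum (𝓞 K') → ℕ) (m : HeightOneSpectrum (𝓞 K) → ℕ),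
      IsLevelAt305 T₀ n m →
    ∃ cG' : ℝ, 0 < cG' ∧
      ∀ (S : Finset (HeightOneSpectrum (𝓞 K))) (S' : Finset (HeightOneSpectrum (𝓞 K'))),
        T₀ ⊆ S → IsOver305 S S' →
      ∀ (φ₀ : ∀ w : HeightOneSpectrum (𝓞 K'), GL (Fin 2) (w.adicCompletion K') → ℂ)
        (Φ : InfinitePlace K' → GL (Fin 2) ℂ → ℂ),
        (∀ v ∈ S, ∀ w : HeightOneSpectrum (𝓞 K'), PlaceOver K K' v w →
          T6.IsBiInv (T6.InU (n w)) (φ₀ w) ∧ T6.HasFinSupp (T6.InU (n w)) (φ₀ w)) →
        (∀ w : InfinitePlace K', Continuous (Φ w) ∧ HasCompactSupport (Φ w) ∧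
          ∀ g : GL (Fin 2) ℂ, Φ w (conjGL305 g) = Φ w g) →
      ∀ (δ : GL (Fin 2) K') (γ : GL (Fin 2) K), T6.IsEll γ →
        D.s.normUpTo D.l δ = Matrix.GeneralLinearGroup.map (algebraMap K K') γ →
        GoodOut305 S γ → IntOut305 S' δ →
      ∀ (L : LocData305 K γ) (cT : ℝ), IsLocData305 m L → 0 < cT →
      ∀ (U : UpDat340 K δ) (hU : IsUpDat340 D ι n L S U),
        (∀ (v : U.Ssp) (a : ℕ), n ((U.dS v).w a) = m v.1) →
        cutInt305 D.R'.r D.s (pure305 S' φ₀ Φ) δ D.R'.μ (upCut340 S' cT L U)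
          = ((cG' / cT : ℝ) : ℂ)
            * ∑' j : ℤ, (∏ v ∈ S, upJ340 D.l hU.pos φ₀ L U v)
                * ∏ w : InfinitePlace K, upJc340 D.l hU.pos D.R'.r Φ L μc U w j

theorem eqns_realisedUFB340 : True := by
  have _a1 := @SecCountC340.eq_1
  have _a2 := @SecCountC340.eq_def
  have _a3 := @SecCountC340.eq_unfold
  have _b1 := @FactIntUpCoreC340.eq_1
  have _b2 := @FactIntUpCoreC340.eq_def
  have _b3 := @FactIntUpCoreC340.eq_unfold
  trivial

/-! ## Topology -/

/-- `GL₂` of a continuous ring homomorphism is continuous. -/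
theorem continuous_GLmap340 {R S : Type*} [CommRing R] [CommRing S] [TopologicalSpace R]
    [TopologicalSpace S] (f : R →+* S) (hf : Continuous f) :
    Continuous (Matrix.GeneralLinearGroup.map (n := Fin 2) f) := by
  have h : Continuous (RingHom.mapMatrix (m := Fin 2) f).toMonoidHom := by
    show Continuous fun M : Matrix (Fin 2) (Fin 2) R => M.map f
    exact Continuous.matrix_map continuous_id hf
  exact Continuous.units_map (RingHom.mapMatrix (m := Fin 2) f).toMonoidHom h

section OneFieldB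

variable {K : Type} [Field K] [NumberField K]

/-- The set of the elements of `GL₂(K_v)` which are integral with integral inverse is closed
(helper20 `isClosed_intGL20`). -/
theorem isClosed_intGL340 (v : HeightOneSpectrum (𝓞 K)) :
    IsClosed {g : GL (Fin 2) (v.adicCompletion K) |
      (∀ i j, (g : Matrix (Fin 2) (Fin 2) (v.adicCompletion K)) i j ∈ v.adicCompletionIntegers K) ∧
      ∀ i j, ((g⁻¹ : GL (Fin 2) (v.adicCompletion K)) :
        Matrix (Fin 2) (Fin 2) (v.adicCompletion K)) i j ∈ v.adicCompletionIntegers K} := by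
  have hO : IsClosed ((v.adicCompletionIntegers K : ValuationSubring (v.adicCompletion K)) :
      Set (v.adicCompletion K)) := Valued.isClosed_valuationSubring (v.adicCompletion K)
  have hval : Continuous fun g : GL (Fin 2) (v.adicCompletion K) =>
      (g : Matrix (Fin 2) (Fin 2) (v.adicCompletion K)) := Units.continuous_val
  have hinv : Continuous fun g : GL (Fin 2) (v.adicCompletion K) =>
      ((g⁻¹ : GL (Fin 2) (v.adicCompletion K)) :
        Matrix (Fin 2) (Fin 2) (v.adicCompletion K)) := Units.continuous_coe_inv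
  have h1 : ∀ i j : Fin 2, Continuous fun g : GL (Fin 2) (v.adicCompletion K) =>
      (g : Matrix (Fin 2) (Fin 2) (v.adicCompletion K)) i j := fun i j =>
    hval.matrix_elem i j
  have h2 : ∀ i j : Fin 2, Continuous fun g : GL (Fin 2) (v.adicCompletion K) =>
      ((g⁻¹ : GL (Fin 2) (v.adicCompletion K)) :
        Matrix (Fin 2) (Fin 2) (v.adicCompletion K)) i j := fun i j =>
    hinv.matrix_elem i j
  have : {g : GL (Fin 2) (v.adicCompletion K) |
      (∀ i j, (g : Matrix (Fin 2) (Fin 2) (v.adicCompletion K)) i j ∈ v.adicCompletionIntegers K) ∧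
      ∀ i j, ((g⁻¹ : GL (Fin 2) (v.adicCompletion K)) :
        Matrix (Fin 2) (Fin 2) (v.adicCompletion K)) i j ∈ v.adicCompletionIntegers K}
      = (⋂ i, ⋂ j, (fun g : GL (Fin 2) (v.adicCompletion K) =>
          (g : Matrix (Fin 2) (Fin 2) (v.adicCompletion K)) i j) ⁻¹'
            ((v.adicCompletionIntegers K : ValuationSubring (v.adicCompletion K)) :
              Set (v.adicCompletion K))) ∩
        ⋂ i, ⋂ j, (fun g : GL (Fin 2) (v.adicCompletion K) =>
          ((g⁻¹ : GL (Fin 2) (v.adicCompletion K)) :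
            Matrix (Fin 2) (Fin 2) (v.adicCompletion K)) i j) ⁻¹'
            ((v.adicCompletionIntegers K : ValuationSubring (v.adicCompletion K)) :
              Set (v.adicCompletion K)) := by
    ext g
    simp only [Set.mem_ofPred_eq, Set.mem_inter_iff, Set.mem_iInter, Set.mem_preimage,
      SetLike.mem_coe]
  rw [this]
  exact (isClosed_iInter fun i => isClosed_iInter fun j => hO.preimage (h1 i j)).inter
    (isClosed_iInter fun i => isClosed_iInter fun j => hO.preimage (h2 i j))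

/-- `Out_S` is closed (helper20 `isClosed_outT20`). -/
theorem isClosed_outT340
    (hfin : ∀ v : HeightOneSpectrum (𝓞 K), Continuous (finGL305 (K := K) v))
    (S : Finset (HeightOneSpectrum (𝓞 K))) : IsClosed {y : G K | OutT305 S y} := by
  have : {y : G K | OutT305 S y}
      = ⋂ v : HeightOneSpectrum (𝓞 K), ⋂ _ : v ∉ S, (finGL305 (K := K) v) ⁻¹'
        {g : GL (Fin 2) (v.adicCompletion K) |
          (∀ i j, (g : Matrix (Fin 2) (Fin 2) (v.adicCompletion K)) i j
            ∈ v.adicCompletionIntegers K) ∧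
          ∀ i j, ((g⁻¹ : GL (Fin 2) (v.adicCompletion K)) :
            Matrix (Fin 2) (Fin 2) (v.adicCompletion K)) i j ∈ v.adicCompletionIntegers K} := by
    ext y
    simp only [Set.mem_ofPred_eq, Set.mem_iInter, Set.mem_preimage]
    constructor
    · intro h v hv
      refine ⟨fun i j => (h v hv).1 i j, fun i j => ?_⟩
      have := (h v hv).2 i j
      rw [← map_inv]
      exact this
    · intro h v hv
      refine ⟨fun i j => (h v hv).1 i j, fun i j => ?_⟩
      have := (h v hv).2 i j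
      rw [← map_inv] at this
      exact this
  rw [this]
  exact isClosed_iInter fun v => isClosed_iInter fun _ => (isClosed_intGL340 v).preimage (hfin v)

end OneFieldB

/-! ## Continuity of the local integrands -/

/-- Continuity of the twisted local integrand. -/
theorem continuous_twFn340 {k : Type} [Field k] [Valued k T6.Γ₀] (s : k ≃+* k)
    (hs : Continuous (s : k →+* k)) {β : GL (Fin 2) k → ℝ} {φ : GL (Fin 2) k → ℂ}
    (hβ : Continuous β) (hφ : Continuous φ) (δ : GL (Fin 2) k) :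
    Continuous (twFn340 s β φ δ) := by
  have hg : Continuous (T6.glAut s) := continuous_GLmap340 (s : k →+* k) hs
  show Continuous fun x : GL (Fin 2) k => φ (x⁻¹ * δ * T6.glAut s x) * ((β x : ℝ) : ℂ)
  exact (hφ.comp ((continuous_inv.mul continuous_const).mul hg)).mul
    (Complex.continuous_ofReal.comp hβ)

/-- Continuity of the twisted product. -/
theorem continuous_cycProd340 {H : Type} [Group H] [TopologicalSpace H] [IsTopologicalGroup H]
    (l : ℕ) {φ : ℕ → H → ℂ} (hφ : ∀ j : ℕ, j < l → Continuous (φ j)) (δ : ℕ → H) :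
    Continuous (cycProd340 l φ δ) := by
  show Continuous fun y : Fin l → H =>
    ∏ j : Fin l, φ j.1 ((y j)⁻¹ * δ j.1 * y (cycSucc340 j))
  refine continuous_finset_prod _ fun j _ => ?_
  exact (hφ j.1 j.2).comp
    ((((continuous_apply j).inv).mul continuous_const).mul (continuous_apply (cycSucc340 j)))

/-- Continuity of the integrand of `splitInt340`. -/
theorem continuous_splitFn340 {H : Type} [Group H] [TopologicalSpace H] [IsTopologicalGroup H]
    (l : ℕ) (hl : 0 < l) {β : H → ℝ} (hβ : Continuous β) {φ : ℕ → H → ℂ}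
    (hφ : ∀ j : ℕ, j < l → Continuous (φ j)) (δ : ℕ → H) :
    Continuous (splitFn340 l hl β φ δ) := by
  show Continuous fun y : Fin l → H => cycProd340 l φ δ y * ((β (y ⟨0, hl⟩) : ℝ) : ℂ)
  exact (continuous_cycProd340 l hφ δ).mul
    (Complex.continuous_ofReal.comp (hβ.comp (continuous_apply _)))

/-- `locTwInt340` is the integral of `twFn340`. -/
theorem locTwInt_eq340 {k : Type} [Field k] [Valued k T6.Γ₀] (s : k ≃+* k)
    (μ : @Measure (GL (Fin 2) k) (borel _)) (β : GL (Fin 2) k → ℝ) (φ : GL (Fin 2) k → ℂ)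
    (δ : GL (Fin 2) k) :
    locTwInt340 s μ β φ δ = @integral _ _ _ _ (borel _) μ (twFn340 s β φ δ) := rfl

/-- `splitInt340` is the integral of `splitFn340`. -/
theorem splitInt_eq340 {H : Type} [Group H] [TopologicalSpace H] (l : ℕ) (hl : 0 < l)
    (μ : @Measure H (borel _)) (β : H → ℝ) (φ : ℕ → H → ℂ) (δ : ℕ → H) :
    splitInt340 l hl μ β φ δ
      = (letI : MeasurableSpace H := borel _
         ∫ y : Fin l → H, splitFn340 l hl β φ δ y ∂(Measure.pi fun _ : Fin l => μ)) := rfl

section TwoFieldsB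

variable {K K' : Type} [Field K] [NumberField K] [Field K'] [NumberField K'] [Algebra K K']

/-- The factorised integrand on the product of the local groups, in the grouped coordinates. -/
def upFactFn340 (l : ℕ) (hl : 0 < l) (r' : G K') {γ : GL (Fin 2) K} (L : LocData305 K γ)
    (cT : ℝ) (φ₀ : ∀ w : HeightOneSpectrum (𝓞 K'), GL (Fin 2) (w.adicCompletion K') → ℂ)
    (Φ : InfinitePlace K' → GL (Fin 2) ℂ → ℂ) {δ : GL (Fin 2) K'} (U : UpDat340 K δ)
    (J : Finset ℤ)
    (x : (∀ v : U.Sin, GL (Fin 2) ((U.dI v).w.adicCompletion K')) ×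
      ((∀ v : U.Ssp, Fin l → GL (Fin 2) ((v : HeightOneSpectrum (𝓞 K)).adicCompletion K)) ×
        (InfinitePlace K → Fin l → GL (Fin 2) ℂ))) : ℂ :=
  ((cT⁻¹ : ℝ) : ℂ) *
    ((∏ v : U.Sin, twFn340 (U.dI v).sw (U.dI v).β' (φ₀ (U.dI v).w) (locG305 (U.dI v).w δ)
        (x.1 v)) *
      ((∏ v : U.Ssp, splitFn340 l hl (L.βv v.1) (phiS340 φ₀ (U.dS v)) (delS340 δ (U.dS v))
          (x.2.1 v)) *
        ∑ j ∈ J, ∏ v : InfinitePlace K,
          splitFn340 l hl (L.βc v) (fun a => Φ ((U.dA v).w a)) (delA340 r' δ (U.dA v) j)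
            (x.2.2 v)))

theorem eqns_realisedUFB2_340 : True := by
  have _a1 := @upFactFn340.eq_1
  have _a2 := @upFactFn340.eq_def
  have _a3 := @upFactFn340.eq_unfold
  trivial

/-- On `Out_{S'}` the integrand is the factorised integrand of the grouped coordinates. -/
theorem integrand_eq340 (hP : PtFactUpC340 K K') (D : CompData K K') (hD : IsCompData D)
    (hcyc : IsCycExt K K' D.l) (hl2 : D.l ≠ 2) (hcplx : TotCplx K)
    (ι : Adl K →+* Adl K') (hι : IsAdeleBase305 D.s D.l ι)
    (n : HeightOneSpectrum (𝓞 K') → ℕ)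
    (S : Finset (HeightOneSpectrum (𝓞 K))) (S' : Finset (HeightOneSpectrum (𝓞 K')))
    (hSS' : IsOver305 S S')
    (φ₀ : ∀ w : HeightOneSpectrum (𝓞 K'), GL (Fin 2) (w.adicCompletion K') → ℂ)
    (Φ : InfinitePlace K' → GL (Fin 2) ℂ → ℂ)
    (hΦ : ∀ (w : InfinitePlace K') (g : GL (Fin 2) ℂ), Φ w (conjGL305 g) = Φ w g)
    (δ : GL (Fin 2) K') (γ : GL (Fin 2) K) (hint : IntOut305 S' δ)
    (L : LocData305 K γ) (cT : ℝ) (U : UpDat340 K δ) (hU : IsUpDat340 D ι n L S U)
    (J : Finset ℤ)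
    (hJ : ∀ j : ℤ, j ∉ J → ∀ (v : InfinitePlace K) (Z : Fin D.l → GL (Fin 2) ℂ),
      cycProd340 D.l (fun a => Φ ((U.dA v).w a)) (delA340 D.R'.r δ (U.dA v) j) Z = 0)
    (y : G K') (hy : OutT305 S' y) :
    T5.twTerm D.R'.r D.s (pure305 S' φ₀ Φ) δ y * ((upCut340 S' cT L U y : ℝ) : ℂ)
      = upFactFn340 D.l hU.pos D.R'.r L cT φ₀ Φ U J (upCoord340 U D.l y) := by
  obtain ⟨w₀⟩ : Nonempty (InfinitePlace K) := inferInstance
  have hterm := fun j : ℤ =>
    hP D hD hcyc hl2 hcplx ι hι n S S' hSS' φ₀ Φ hΦ δ γ hint L U hU y j hy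
  have hsum : T5.twTerm D.R'.r D.s (pure305 S' φ₀ Φ) δ y
      = ∑ j ∈ J, (∏ v : U.Sin, φ₀ (U.dI v).w
              ((finGL305 (U.dI v).w y)⁻¹ * locG305 (U.dI v).w δ
                * T6.glAut (U.dI v).sw (finGL305 (U.dI v).w y)))
          * (∏ v : U.Ssp, cycProd340 D.l (phiS340 φ₀ (U.dS v)) (delS340 δ (U.dS v))
              (coordS340 (U.dS v) D.l y))
          * ∏ v : InfinitePlace K, cycProd340 D.l (fun a => Φ ((U.dA v).w a))
              (delA340 D.R'.r δ (U.dA v) j) (coordA340 (U.dA v) D.l y) := by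
    show (∑' m : ℤ, pure305 S' φ₀ Φ (y⁻¹ * T5.ratG δ * D.s.onG y * D.R'.r ^ m)) = _
    rw [tsum_congr hterm]
    exact tsum_eq_sum fun j hj => by
      rw [Finset.prod_eq_zero (Finset.mem_univ w₀) (hJ j hj w₀ _), mul_zero]
  rw [hsum]
  unfold upFactFn340 upCut340
  rw [if_pos hy]
  simp only [twFn340, splitFn340, upCoord340, Finset.prod_mul_distrib]
  push_cast
  rw [← Finset.mul_sum, ← Finset.sum_mul]
  have e1 : ∀ v : U.Ssp, coordS340 (U.dS v) D.l y ⟨0, hU.pos⟩
      = Matrix.GeneralLinearGroup.map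
          ((((U.dS v).i 0).symm : ((U.dS v).w 0).adicCompletion K' ≃+* _) :
            ((U.dS v).w 0).adicCompletion K' →+* (v.1).adicCompletion K)
          (finGL305 ((U.dS v).w 0) y) := fun v => rfl
  have e2 : ∀ v : InfinitePlace K, coordA340 (U.dA v) D.l y ⟨0, hU.pos⟩
      = Matrix.GeneralLinearGroup.map ((U.dA v).d 0) (infGL305 ((U.dA v).w 0) y) :=
    fun v => rfl
  simp only [e1, e2]
  ring

/-- The product of the values over `S` is the product over `Sin` times the product over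
`Ssp`. -/
theorem prod_upJ340 (l : ℕ) (hl : 0 < l)
    (φ₀ : ∀ w : HeightOneSpectrum (𝓞 K'), GL (Fin 2) (w.adicCompletion K') → ℂ)
    {γ : GL (Fin 2) K} (L : LocData305 K γ) {δ : GL (Fin 2) K'}
    (S : Finset (HeightOneSpectrum (𝓞 K))) (U : UpDat340 K δ)
    (hunion : ∀ v : HeightOneSpectrum (𝓞 K), v ∈ S ↔ v ∈ U.Sin ∨ v ∈ U.Ssp)
    (hdis : ∀ v : HeightOneSpectrum (𝓞 K), v ∈ U.Sin → v ∉ U.Ssp) :
    ∏ v ∈ S, upJ340 l hl φ₀ L U v
      = (∏ v : U.Sin, locTwInt340 (U.dI v).sw (U.dI v).μ' (U.dI v).β' (φ₀ (U.dI v).w)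
            (locG305 (U.dI v).w δ))
        * ∏ v : U.Ssp, splitInt340 l hl (L.μv v.1) (L.βv v.1) (phiS340 φ₀ (U.dS v))
            (delS340 δ (U.dS v)) := by
  classical
  have hSeq : S = U.Sin ∪ U.Ssp := Finset.ext fun v => by
    rw [Finset.mem_union]
    exact hunion v
  have hdisj : Disjoint U.Sin U.Ssp := Finset.disjoint_left.2 fun v h1 h2 => hdis v h1 h2
  rw [hSeq, Finset.prod_union hdisj]
  congr 1
  · rw [← Finset.prod_coe_sort U.Sin]
    exact Finset.prod_congr rfl fun v _ => upJ_inert340 l hl φ₀ L U v.1 v.2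
  · rw [← Finset.prod_coe_sort U.Ssp]
    exact Finset.prod_congr rfl fun v _ =>
      upJ_split340 l hl φ₀ L U v.1 (fun h1 => hdis v.1 h1 v.2) v.2

/-- **TOP B of the second cut of `UpFactC340`, CORE FORM**: the integral part from its
leaves. -/
theorem factIntUpCore_of340 (hG : GrpSplitC340 K K') (hP : PtFactUpC340 K K')
    (hR : RayFinUpC340 K K') (hI : ArchIntblUpC340 K K') (hAI : ArchIntblC558)
    (hCC' : CompContC558 K') (hBI' : BiInvContC558 K') (hSig : HaarSigmaC558 K)
    (hSig' : HaarSigmaC558 K') (hIso : IsoContC340) (hSC : SecCountC340 K) :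
    FactIntUpCoreC340 K K' := by
  intro hT6 D hD hcyc hl2 hcplx ι hι μc hμc T₀ hT₀ n m hlev
  obtain ⟨c, hc, hsplit⟩ := hG hT6 D hD hcyc hl2 hcplx ι hι μc hμc T₀ hT₀ n m hlev
  refine ⟨c, hc, ?_⟩
  intro S S' hTS hSS' φ₀ Φ hinv harch δ γ hγ hN hgood hint L cT hL hcT U hU hlevS
  letI mw : ∀ w : HeightOneSpectrum (𝓞 K'),
      MeasurableSpace (GL (Fin 2) (w.adicCompletion K')) := fun _ => borel _
  letI mv : ∀ v : HeightOneSpectrum (𝓞 K), MeasurableSpace (GL (Fin 2) (v.adicCompletion K)) :=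
    fun _ => borel _
  letI mc : MeasurableSpace (GL (Fin 2) ℂ) := borel _
  haveI bw : ∀ w : HeightOneSpectrum (𝓞 K'), BorelSpace (GL (Fin 2) (w.adicCompletion K')) :=
    fun _ => ⟨rfl⟩
  haveI bv : ∀ v : HeightOneSpectrum (𝓞 K), BorelSpace (GL (Fin 2) (v.adicCompletion K)) :=
    fun _ => ⟨rfl⟩
  haveI bc : BorelSpace (GL (Fin 2) ℂ) := ⟨rfl⟩
  haveI bG : BorelSpace (G K') := ⟨rfl⟩
  haveI scv : ∀ v : HeightOneSpectrum (𝓞 K),
      SecondCountableTopology (GL (Fin 2) (v.adicCompletion K)) := hSC.1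
  haveI scc : SecondCountableTopology (GL (Fin 2) ℂ) := hSC.2
  haveI sw : ∀ v : U.Sin, SigmaFinite (U.dI v).μ' :=
    fun v => hSig'.1 (U.dI v).w (U.dI v).μ' (hU.inert v).haar.1
  haveI sv : ∀ v : HeightOneSpectrum (𝓞 K), SigmaFinite (L.μv v) :=
    fun v => hSig.1 v (L.μv v) (hL.haar v).1
  haveI sc : SigmaFinite μc := hSig.2.1 μc hμc
  have hl : 0 < D.l := hU.pos
  have hmap : Measure.map (upCoord340 U D.l) (D.R'.μ.restrict {y | OutT305 S' y})
      = ENNReal.ofReal c •
        ((Measure.pi fun v : U.Sin => (U.dI v).μ').prod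
          ((Measure.pi fun v : U.Ssp => Measure.pi fun _ : Fin D.l => L.μv v.1).prod
            (Measure.pi fun _ : InfinitePlace K => Measure.pi fun _ : Fin D.l => μc))) :=
    hsplit S S' hTS hSS' δ γ L hL U hU hlevS
  obtain ⟨J, hJ⟩ := hR D hD ι Φ (fun w => ⟨(harch w).1, (harch w).2.1⟩) δ U.dA
    hU.arch
  obtain ⟨w₀⟩ : Nonempty (InfinitePlace K) := inferInstance
  -- continuity of the local maps
  have hOut : MeasurableSet {y : G K' | OutT305 S' y} :=
    (isClosed_outT340 hCC'.1 S').measurableSet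
  have hφw : ∀ v : U.Sin, Continuous (φ₀ (U.dI v).w) := fun v =>
    hBI' (U.dI v).w (n (U.dI v).w) (φ₀ (U.dI v).w)
      (hinv v.1 ((hU.union v.1).2 (Or.inl v.2)) (U.dI v).w (hU.inert v).ovr).1
  have hsw : ∀ v : U.Sin, Continuous (((U.dI v).sw : _ ≃+* _) :
      (U.dI v).w.adicCompletion K' →+* (U.dI v).w.adicCompletion K') := fun v =>
    (hIso _ _ 1 _ one_pos fun x => by rw [pow_one]; exact (hU.inert v).ext.val_s x).1
  have hφS : ∀ (v : U.Ssp) (j : ℕ), Continuous (phiS340 φ₀ (U.dS v) j) := by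
    intro v j
    have h1 : Continuous (φ₀ ((U.dS v).w j)) :=
      hBI' ((U.dS v).w j) (n ((U.dS v).w j)) (φ₀ ((U.dS v).w j))
        (hinv v.1 ((hU.union v.1).2 (Or.inr v.2)) ((U.dS v).w j)
          ((hU.split v).ovr j)).1
    have h2 : Continuous ((((U.dS v).i j : _ ≃+* _) :
        (v.1).adicCompletion K →+* ((U.dS v).w j).adicCompletion K')) :=
      (hIso _ _ 1 _ one_pos fun x => by rw [pow_one]; exact (hU.split v).val_i j x).1
    exact h1.comp (continuous_GLmap340 _ h2)
  have hiS : ∀ (v : U.Ssp) (j : ℕ), Continuous (((((U.dS v).i j).symm : _ ≃+* _) :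
      ((U.dS v).w j).adicCompletion K' →+* (v.1).adicCompletion K)) := by
    intro v j
    refine (hIso _ _ 1 _ one_pos fun x => ?_).1
    rw [pow_one]
    have := (hU.split v).val_i j (((U.dS v).i j).symm x)
    rw [RingEquiv.apply_symm_apply] at this
    exact this.symm
  have hdA : ∀ (v : InfinitePlace K) (a : ℕ), Continuous ((U.dA v).d a) := by
    intro v a
    rcases (hU.arch v).typ a with h | h
    · rw [h]; exact continuous_id
    · rw [h]; exact Complex.continuous_conj
  -- measurability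
  have hcomp : Measurable (upCoord340 U D.l) := by
    refine Measurable.prodMk (measurable_pi_lambda _ fun v => (hCC'.1 _).measurable)
      (Measurable.prodMk (measurable_pi_lambda _ fun v => measurable_pi_lambda _ fun a => ?_)
        (measurable_pi_lambda _ fun v => measurable_pi_lambda _ fun a => ?_))
    · exact ((continuous_GLmap340 _ (hiS v a.1)).comp (hCC'.1 _)).measurable
    · exact ((continuous_GLmap340 _ (hdA v a.1)).comp (hCC'.2 _)).measurable
  have hfI : ∀ v : U.Sin, Measurable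
      (twFn340 (U.dI v).sw (U.dI v).β' (φ₀ (U.dI v).w) (locG305 (U.dI v).w δ)) := fun v =>
    (continuous_twFn340 _ (hsw v) (hU.inert v).cut.1 (hφw v) _).measurable
  have hfS : ∀ v : U.Ssp, Measurable
      (splitFn340 D.l hl (L.βv v.1) (phiS340 φ₀ (U.dS v)) (delS340 δ (U.dS v))) := fun v =>
    (continuous_splitFn340 D.l hl (hL.cut v.1).1 (fun j _ => hφS v j) _).measurable
  have hfA : ∀ (j : ℤ) (v : InfinitePlace K), Measurable
      (splitFn340 D.l hl (L.βc v) (fun a => Φ ((U.dA v).w a))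
        (delA340 D.R'.r δ (U.dA v) j)) := fun j v =>
    (continuous_splitFn340 D.l hl (hL.cutc v).1 (fun a _ => (harch _).1) _).measurable
  have hΨ : Measurable (upFactFn340 D.l hl D.R'.r L cT φ₀ Φ U J) := by
    unfold upFactFn340
    refine measurable_const.mul (Measurable.mul ?_ (Measurable.mul ?_ ?_))
    · exact Finset.measurable_prod _ fun v _ =>
        (hfI v).comp ((measurable_pi_apply v).comp measurable_fst)
    · exact Finset.measurable_prod _ fun v _ =>
        (hfS v).comp ((measurable_pi_apply v).comp (measurable_fst.comp measurable_snd))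
    · exact Finset.measurable_sum _ fun j _ => Finset.measurable_prod _ fun v _ =>
        (hfA j v).comp ((measurable_pi_apply v).comp (measurable_snd.comp measurable_snd))
  -- the integral over `GL₂(𝔸_{K'})` as an integral over the product of the local groups
  have h1 : cutInt305 D.R'.r D.s (pure305 S' φ₀ Φ) δ D.R'.μ (upCut340 S' cT L U)
      = ∫ x, upFactFn340 D.l hl D.R'.r L cT φ₀ Φ U J x
          ∂(Measure.map (upCoord340 U D.l) (D.R'.μ.restrict {y | OutT305 S' y})) := by
    rw [integral_map hcomp.aemeasurable hΨ.aestronglyMeasurable]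
    unfold cutInt305
    rw [← setIntegral_eq_integral_of_forall_compl_eq_zero (s := {y | OutT305 S' y})]
    · exact setIntegral_congr_fun hOut fun y hy =>
        integrand_eq340 hP D hD hcyc hl2 hcplx ι hι n S S' hSS' φ₀ Φ
          (fun w => (harch w).2.2) δ γ hint L cT U hU J hJ y hy
    · intro y hy
      have hy' : ¬ OutT305 S' y := hy
      have h0 : upCut340 S' cT L U y = 0 := by
        unfold upCut340
        rw [if_neg hy']
      rw [h0]
      simp
  -- integrability at the infinite places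
  have hintbl : ∀ (j : ℤ) (v : InfinitePlace K),
      Integrable (splitFn340 D.l hl (L.βc v) (fun a => Φ ((U.dA v).w a))
        (delA340 D.R'.r δ (U.dA v) j)) (Measure.pi fun _ : Fin D.l => μc) := fun j v =>
    hI hAI D hD hcyc hl2 hcplx ι hι μc hμc Φ
      (fun w => ⟨(harch w).1, (harch w).2.1⟩) δ γ hγ hN m L hL v (U.dA v)
      (hU.arch v) hl j
  -- Fubini
  have h2 : ∫ x, upFactFn340 D.l hl D.R'.r L cT φ₀ Φ U J x
        ∂((Measure.pi fun v : U.Sin => (U.dI v).μ').prod
          ((Measure.pi fun v : U.Ssp => Measure.pi fun _ : Fin D.l => L.μv v.1).prod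
            (Measure.pi fun _ : InfinitePlace K => Measure.pi fun _ : Fin D.l => μc)))
      = ((cT⁻¹ : ℝ) : ℂ) *
        ((∏ v : U.Sin, ∫ a, twFn340 (U.dI v).sw (U.dI v).β' (φ₀ (U.dI v).w)
              (locG305 (U.dI v).w δ) a ∂((U.dI v).μ')) *
          ((∏ v : U.Ssp, ∫ a, splitFn340 D.l hl (L.βv v.1) (phiS340 φ₀ (U.dS v))
                (delS340 δ (U.dS v)) a ∂(Measure.pi fun _ : Fin D.l => L.μv v.1)) *
            ∑ j ∈ J, ∏ v : InfinitePlace K,
              ∫ b, splitFn340 D.l hl (L.βc v) (fun a => Φ ((U.dA v).w a))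
                (delA340 D.R'.r δ (U.dA v) j) b ∂(Measure.pi fun _ : Fin D.l => μc))) := by
    unfold upFactFn340
    rw [integral_const_mul]
    rw [integral_prod_mul
      (fun a : ∀ v : U.Sin, GL (Fin 2) ((U.dI v).w.adicCompletion K') =>
        ∏ v : U.Sin, twFn340 (U.dI v).sw (U.dI v).β' (φ₀ (U.dI v).w)
          (locG305 (U.dI v).w δ) (a v))
      (fun z : (∀ v : U.Ssp, Fin D.l →
            GL (Fin 2) ((v : HeightOneSpectrum (𝓞 K)).adicCompletion K)) ×
          (InfinitePlace K → Fin D.l → GL (Fin 2) ℂ) =>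
        (∏ v : U.Ssp, splitFn340 D.l hl (L.βv v.1) (phiS340 φ₀ (U.dS v))
            (delS340 δ (U.dS v)) (z.1 v)) *
          ∑ j ∈ J, ∏ v : InfinitePlace K,
            splitFn340 D.l hl (L.βc v) (fun a => Φ ((U.dA v).w a))
              (delA340 D.R'.r δ (U.dA v) j) (z.2 v))]
    rw [integral_prod_mul
      (fun a : ∀ v : U.Ssp, Fin D.l →
          GL (Fin 2) ((v : HeightOneSpectrum (𝓞 K)).adicCompletion K) =>
        ∏ v : U.Ssp, splitFn340 D.l hl (L.βv v.1) (phiS340 φ₀ (U.dS v))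
          (delS340 δ (U.dS v)) (a v))
      (fun b : InfinitePlace K → Fin D.l → GL (Fin 2) ℂ =>
        ∑ j ∈ J, ∏ v : InfinitePlace K,
          splitFn340 D.l hl (L.βc v) (fun a => Φ ((U.dA v).w a))
            (delA340 D.R'.r δ (U.dA v) j) (b v))]
    rw [integral_fintype_prod_eq_prod
      (fun v : U.Sin => twFn340 (U.dI v).sw (U.dI v).β' (φ₀ (U.dI v).w)
        (locG305 (U.dI v).w δ))]
    rw [integral_fintype_prod_eq_prod
      (fun v : U.Ssp => splitFn340 D.l hl (L.βv v.1) (phiS340 φ₀ (U.dS v))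
        (delS340 δ (U.dS v)))]
    rw [integral_finsetSum J fun j _ => Integrable.fintype_prod (hintbl j)]
    congr 3
    refine Finset.sum_congr rfl fun j _ => ?_
    exact integral_fintype_prod_eq_prod
      (fun v : InfinitePlace K => splitFn340 D.l hl (L.βc v) (fun a => Φ ((U.dA v).w a))
        (delA340 D.R'.r δ (U.dA v) j))
  -- the factorised value is a finite sum
  have h3 : (∑' j : ℤ, (∏ v ∈ S, upJ340 D.l hU.pos φ₀ L U v)
        * ∏ w : InfinitePlace K, upJc340 D.l hU.pos D.R'.r Φ L μc U w j)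
      = ∑ j ∈ J, (∏ v ∈ S, upJ340 D.l hU.pos φ₀ L U v)
        * ∏ w : InfinitePlace K, upJc340 D.l hU.pos D.R'.r Φ L μc U w j := by
    refine tsum_eq_sum fun j hj => ?_
    have h0 : upJc340 D.l hU.pos D.R'.r Φ L μc U w₀ j = 0 := by
      show (∫ y : Fin D.l → GL (Fin 2) ℂ,
        splitFn340 D.l hU.pos (L.βc w₀) (fun a => Φ ((U.dA w₀).w a))
          (delA340 D.R'.r δ (U.dA w₀) j) y ∂(Measure.pi fun _ : Fin D.l => μc)) = 0
      have hz : splitFn340 D.l hU.pos (L.βc w₀) (fun a => Φ ((U.dA w₀).w a))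
          (delA340 D.R'.r δ (U.dA w₀) j) = fun _ => 0 := by
        funext y
        show cycProd340 D.l (fun a => Φ ((U.dA w₀).w a)) (delA340 D.R'.r δ (U.dA w₀) j) y
          * ((L.βc w₀ (y ⟨0, hU.pos⟩) : ℝ) : ℂ) = 0
        rw [hJ j hj w₀ y, zero_mul]
      rw [hz]
      exact integral_zero _ _
    rw [Finset.prod_eq_zero (Finset.mem_univ w₀) h0, mul_zero]
  rw [h1, hmap, integral_smul_measure, ENNReal.toReal_ofReal hc.le, h2, h3,
    prod_upJ340 D.l hU.pos φ₀ L S U hU.union hU.disj, ← Finset.mul_sum, Complex.real_smul]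
  have e1 : ∀ v : U.Sin, locTwInt340 (U.dI v).sw (U.dI v).μ' (U.dI v).β' (φ₀ (U.dI v).w)
      (locG305 (U.dI v).w δ)
      = ∫ a, twFn340 (U.dI v).sw (U.dI v).β' (φ₀ (U.dI v).w) (locG305 (U.dI v).w δ) a
          ∂((U.dI v).μ') := fun v => rfl
  have e2 : ∀ v : U.Ssp, splitInt340 D.l hU.pos (L.μv v.1) (L.βv v.1) (phiS340 φ₀ (U.dS v))
      (delS340 δ (U.dS v))
      = ∫ a, splitFn340 D.l hl (L.βv v.1) (phiS340 φ₀ (U.dS v)) (delS340 δ (U.dS v)) a
          ∂(Measure.pi fun _ : Fin D.l => L.μv v.1) := fun v => rfl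
  have e3 : ∀ (v : InfinitePlace K) (j : ℤ), upJc340 D.l hU.pos D.R'.r Φ L μc U v j
      = ∫ b, splitFn340 D.l hl (L.βc v) (fun a => Φ ((U.dA v).w a))
          (delA340 D.R'.r δ (U.dA v) j) b ∂(Measure.pi fun _ : Fin D.l => μc) :=
    fun v j => rfl
  simp only [e1, e2, e3]
  push_cast
  ring

/-- `FactIntUpC340` (for `LocHyp305`) from the core form. -/
theorem factIntUpC_of_core340 (hC : FactIntUpCoreC340 K K') : FactIntUpC340 K K' := by
  intro hT6 D hD hcyc hl2 hcplx ι hι μc hμc T₀ hT₀ n m hlev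
  obtain ⟨c, hc, hcore⟩ := hC hT6 D hD hcyc hl2 hcplx ι hι μc hμc T₀ hT₀ n m hlev
  refine ⟨c, hc, ?_⟩
  intro S S' hTS hSS' φ₀ Φ f₀ F hloc δ γ hγ hN hgood hint L cT hL hcT U hU
  refine hcore S S' hTS hSS' φ₀ Φ hloc.inv_up hloc.arch_up δ γ hγ hN hgood hint L cT hL hcT U hU
    ?_
  intro v a
  have hd := hU.split v
  have hvS : v.1 ∈ S := (hU.union v.1).2 (Or.inr v.2)
  exact (hloc.split v.1 hvS (U.dS v).w (U.dS v).i hd.ovr hd.rel hd.ne hd.rat_i hd.val_i).1 a

/-- **TOP B of the second cut of `UpFactC340`**: the integral part from its leaves. -/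
theorem factIntUpC_of340 (hG : GrpSplitC340 K K') (hP : PtFactUpC340 K K')
    (hR : RayFinUpC340 K K') (hI : ArchIntblUpC340 K K') (hAI : ArchIntblC558)
    (hCC' : CompContC558 K') (hBI' : BiInvContC558 K') (hSig : HaarSigmaC558 K)
    (hSig' : HaarSigmaC558 K') (hIso : IsoContC340) (hSC : SecCountC340 K) :
    FactIntUpC340 K K' :=
  factIntUpC_of_core340
    (factIntUpCore_of340 hG hP hR hI hAI hCC' hBI' hSig hSig' hIso hSC)

end TwoFieldsB

end Fermat.Agent.LT.T7.H340

end
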